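/-
A finite extension of the inertia field as a totally ramified extension of discrete valuation
rings, with the action of inertia.
-/
import Fermat.Agent.NewVec.LocalBase
import Mathlib.RingTheory.DedekindDomain.IntegralClosure
import Mathlib.RingTheory.Nakayama

set_option autoImplicit false
set_option linter.style.haveILetI false
set_option linter.unusedSectionVars false

noncomputable section

namespace Fermat.Agent.GalRep.InertiaBase

open IsLocalRing Polynomial
open Fermat.Agent.Galois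
open Fermat.Agent.ModField (Emb stabK mem_stabK)
open Fermat.Agent.NewVec

local notation "Qb" => AlgebraicClosure ℚ

variable (A : ValuationSubring (AlgebraicClosure ℚ))
  (L : IntermediateField ℚ (AlgebraicClosure ℚ))

/-- The compositum with the inertia field. -/
def rFld : IntermediateField (inertiaFld A) Qb :=
  IntermediateField.adjoin (inertiaFld A) (L : Set Qb)

theorem mem_rFld_of_mem {x : Qb} (hx : x ∈ L) : x ∈ rFld A L :=
  IntermediateField.subset_adjoin _ _ hx

theorem inertia_mem_rFld (c : inertiaFld A) : (c : Qb) ∈ rFld A L :=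
  IntermediateField.algebraMap_mem _ c

theorem oFld_le_rFld (M : ℕ) [NeZero M] (hζ : zetaQ M ∈ L) : oFld A M ≤ rFld A L :=
  IntermediateField.adjoin_le_iff.mpr (Set.singleton_subset_iff.mpr (mem_rFld_of_mem A L hζ))

instance finite_rFld [FiniteDimensional ℚ L] : FiniteDimensional (inertiaFld A) (rFld A L) := by
  let b := Module.finBasis ℚ L
  have hle : rFld A L ≤
      IntermediateField.adjoin (inertiaFld A) (Set.range fun i => ((b i : L) : Qb)) := by
    refine IntermediateField.adjoin_le_iff.mpr fun x hx => ?_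
    have hs := congrArg (fun y : L => (y : Qb)) (b.sum_repr ⟨x, hx⟩)
    simp only [AddSubmonoidClass.coe_finsetSum] at hs
    rw [← hs]
    refine sum_mem fun i _ => ?_
    rw [IntermediateField.coe_smul, Algebra.smul_def,
      IsScalarTower.algebraMap_apply ℚ (inertiaFld A) Qb]
    exact mul_mem (IntermediateField.algebraMap_mem _ _)
      (IntermediateField.subset_adjoin _ _ ⟨i, rfl⟩)
  have : FiniteDimensional (inertiaFld A)
      (IntermediateField.adjoin (inertiaFld A) (Set.range fun i => ((b i : L) : Qb))) :=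
    IntermediateField.finiteDimensional_adjoin fun x _ =>
      (Algebra.IsIntegral.isIntegral (R := ℚ) x).tower_top
  exact FiniteDimensional.of_injective (IntermediateField.inclusion hle).toLinearMap
    (IntermediateField.inclusion hle).injective

theorem mem_rFld_apply [Normal ℚ L] {σ : GQ} (hσ : σ ∈ A.inertiaSubgroupIn ℚ) {x : Qb}
    (hx : x ∈ rFld A L) : σ x ∈ rFld A L := by
  induction hx using IntermediateField.adjoin_induction with
  | mem x hx =>
    refine mem_rFld_of_mem A L ?_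
    have h := AlgEquiv.restrictNormal_commutes σ L ⟨x, hx⟩
    change _ = σ x at h
    rw [← h]
    exact (σ.restrictNormal L ⟨x, hx⟩).2
  | algebraMap x =>
    rw [show σ (algebraMap (inertiaFld A) Qb x) = (x : Qb) from (mem_inertiaFld A).mp x.2 σ hσ]
    exact inertia_mem_rFld A L x
  | add x y _ _ hx hy => rw [map_add]; exact add_mem hx hy
  | inv x _ hx => rw [map_inv₀]; exact inv_mem hx
  | mul x y _ _ hx hy => rw [map_mul]; exact mul_mem hx hy

/-- Its valuation ring. -/
def rBase : ValuationSubring (rFld A L) := A.comap (algebraMap (rFld A L) Qb)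

/-- The inclusion of the unramified base. -/
def wToR : wBase A →+* rBase A L where
  toFun w := ⟨algebraMap (inertiaFld A) (rFld A L) w, w.2⟩
  map_one' := Subtype.ext (map_one _)
  map_mul' _ _ := Subtype.ext (map_mul _ _ _)
  map_zero' := Subtype.ext (map_zero _)
  map_add' _ _ := Subtype.ext (map_add _ _ _)

instance instAlgebraWR : Algebra (wBase A) (rBase A L) := (wToR A L).toAlgebra

/-- The algebraic number underlying an element. -/
def rVal : rBase A L →+* Qb := (algebraMap (rFld A L) Qb).comp (rBase A L).subtype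

theorem rVal_injective : Function.Injective (rVal A L) :=
  (algebraMap (rFld A L) Qb).injective.comp Subtype.val_injective

theorem rVal_algebraMap (w : wBase A) :
    rVal A L (algebraMap (wBase A) (rBase A L) w) = ((w : inertiaFld A) : Qb) := rfl

theorem rVal_mem (x : rBase A L) : rVal A L x ∈ A := x.2

theorem rVal_mem_rFld (x : rBase A L) : rVal A L x ∈ rFld A L := (x : rFld A L).2

theorem mem_maximalIdeal_rBase (x : rBase A L) :
    x ∈ maximalIdeal (rBase A L) ↔ A.valuation (rVal A L x) < 1 :=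
  mem_maximalIdeal_cut _ x

instance instFaithfulWR : FaithfulSMul (wBase A) (rBase A L) :=
  (faithfulSMul_iff_algebraMap_injective _ _).mpr fun a b h => by
    have h1 := congrArg (rVal A L) h
    rw [rVal_algebraMap, rVal_algebraMap] at h1
    exact Subtype.ext (Subtype.ext h1)

instance instTowerWR : IsScalarTower (wBase A) (rBase A L) (rFld A L) :=
  IsScalarTower.of_algebraMap_eq fun _ => rfl

variable {A L} {q : ℕ} (hq : q.Prime) (hA : A.LiesOverPrime q)
include hq hA

theorem val_inertiaFld {c : inertiaFld A} (hc : c ≠ 0) :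
    ∃ k : ℤ, A.valuation (c : Qb) = A.valuation (q : Qb) ^ k :=
  exists_val_eq_zpow_of_fixed hq hA ((mem_inertiaFld A).mp c.2) fun e => hc (Subtype.ext e)

/-- In a dependence over the inertia field two terms have the same valuation. -/
theorem exists_two_terms {ι : Type} [Fintype ι] (y : ι → Qb) (hy : ∀ i, y i ≠ 0)
    (c : ι → inertiaFld A) (h : ∑ i, (c i : Qb) * y i = 0) (hc : ∃ i, c i ≠ 0) :
    ∃ i j, i ≠ j ∧ ∃ a b : ℤ,
      A.valuation (q : Qb) ^ a * A.valuation (y i) = A.valuation (q : Qb) ^ b * A.valuation (y j) := by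
  classical
  by_contra hcon
  push Not at hcon
  let T := Finset.univ.filter fun i => c i ≠ 0
  obtain ⟨i₀, hi₀⟩ := hc
  obtain ⟨m, hm, hmax⟩ := T.exists_max_image (fun i => A.valuation ((c i : Qb) * y i))
    ⟨i₀, by simpa [T] using hi₀⟩
  have hm' : c m ≠ 0 := by simpa [T] using hm
  have hlt : A.valuation (∑ i ∈ T.erase m, (c i : Qb) * y i) < A.valuation ((c m : Qb) * y m) := by
    refine A.valuation.map_sum_lt ?_ fun i hi => ?_
    · rw [map_mul]
      exact mul_ne_zero (by simpa using fun h0 => hm' (Subtype.ext h0)) (by simpa using hy m)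
    obtain ⟨him, hiT⟩ := Finset.mem_erase.mp hi
    refine lt_of_le_of_ne (hmax i hiT) fun heq => ?_
    obtain ⟨a, ha⟩ := val_inertiaFld hq hA (c := c i) (by simpa [T] using hiT)
    obtain ⟨b, hb⟩ := val_inertiaFld hq hA hm'
    rw [map_mul, map_mul, ha, hb] at heq
    exact hcon i m him a b heq
  have hsum : ∑ i ∈ T, (c i : Qb) * y i = 0 := by
    rw [Finset.sum_filter_of_ne]
    · exact h
    · intro i _ hi hc0
      exact hi (by simp [hc0])
  rw [← Finset.add_sum_erase T _ hm] at hsum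
  rw [eq_neg_of_add_eq_zero_right hsum, Valuation.map_neg] at hlt
  exact lt_irrefl _ hlt

theorem val_q_zero : A.valuation (q : Qb) ≠ 0 := by simpa using hq.ne_zero

theorem val_q_lt : A.valuation (q : Qb) < 1 := GalRep.Model.val_natCast_lt_one A hA

variable [FiniteDimensional ℚ L]

theorem exists_pow_val {x : Qb} (hx : x ∈ rFld A L) (hx0 : x ≠ 0) :
    ∃ k : ℤ, A.valuation x ^ (Module.finrank (inertiaFld A) (rFld A L)).factorial =
      A.valuation (q : Qb) ^ k := by
  set d := Module.finrank (inertiaFld A) (rFld A L)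
  have hdep : ¬ LinearIndependent (inertiaFld A)
      (fun i : Fin (d + 1) => (⟨x, hx⟩ : rFld A L) ^ (i : ℕ)) := fun h => by
    have h1 := h.fintype_card_le_finrank
    rw [Fintype.card_fin] at h1
    exact Nat.not_succ_le_self d h1
  obtain ⟨c, hc, hne⟩ := Fintype.not_linearIndependent_iff.mp hdep
  have hc' : ∑ i, (c i : Qb) * x ^ (i : ℕ) = 0 := by
    have h := congrArg (fun t : rFld A L => (t : Qb)) hc
    simpa [Algebra.smul_def] using h
  obtain ⟨i, j, hij, a, b, hab⟩ := exists_two_terms hq hA (fun i : Fin (d + 1) => x ^ (i : ℕ))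
    (fun i => pow_ne_zero _ hx0) c hc' hne
  have hv0 : A.valuation x ≠ 0 := by simpa using hx0
  have h0 := val_q_zero hq hA
  simp only [map_pow] at hab
  have key : A.valuation x ^ ((i : ℤ) - j) = A.valuation (q : Qb) ^ (b - a) := by
    rw [zpow_sub₀ hv0, zpow_sub₀ h0, zpow_natCast, zpow_natCast,
      div_eq_div_iff (pow_ne_zero _ hv0) (zpow_ne_zero _ h0), mul_comm, hab]
  have hne' : ((i : ℤ) - j) ≠ 0 := fun e => hij (Fin.ext (by omega))
  have hd : ((i : ℤ) - j).natAbs ∣ d.factorial :=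
    Nat.dvd_factorial (Int.natAbs_pos.mpr hne') (by omega)
  obtain ⟨t, ht⟩ := Int.natAbs_dvd.mp (Int.natCast_dvd_natCast.mpr hd)
  refine ⟨(b - a) * t, ?_⟩
  rw [zpow_mul, ← key, ← zpow_mul, ← ht, zpow_natCast]

/-- A uniformiser and the index of ramification. -/
theorem exists_uniformiser :
    ∃ ϖ : rBase A L, ∃ e : ℕ, 0 < e ∧ A.valuation (rVal A L ϖ) ^ e = A.valuation (q : Qb) ∧
      ∀ x ∈ rFld A L, x ≠ 0 → ∃ k : ℤ, A.valuation x = A.valuation (rVal A L ϖ) ^ k := by
  classical
  set D := (Module.finrank (inertiaFld A) (rFld A L)).factorial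
  have hD : 0 < D := Nat.factorial_pos _
  set v := A.valuation
  have h0 := val_q_zero hq hA
  have h1 := val_q_lt hq hA
  have hinj : Function.Injective fun k : ℤ => v (q : Qb) ^ k :=
    (zpow_right_strictAnti₀ (zero_lt_iff.mpr h0) h1).injective
  have hex : ∃ k : ℕ, 0 < k ∧ ∃ x ∈ rFld A L, x ≠ 0 ∧ v x ^ D = v (q : Qb) ^ (k : ℤ) :=
    ⟨D, hD, q, natCast_mem _ q, Nat.cast_ne_zero.mpr hq.ne_zero, by rw [zpow_natCast]⟩
  obtain ⟨hg, ϖ, hϖK, hϖ0, hϖ⟩ := Nat.find_spec hex
  set g := Nat.find hex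
  have hvϖ0 : v ϖ ≠ 0 := by simpa [v] using hϖ0
  have hroot : ∀ {a b : A.ValueGroup}, a ^ D = b ^ D → a = b := fun h =>
    (pow_left_inj₀ zero_le zero_le hD.ne').mp h
  have hcyc : ∀ x ∈ rFld A L, x ≠ 0 → ∀ k : ℤ, v x ^ D = v (q : Qb) ^ k → (g : ℤ) ∣ k := by
    intro x hx hx0 k hk
    by_contra hdvd
    have hr : 0 ≤ k % (g : ℤ) := Int.emod_nonneg _ (by omega)
    have hr' : k % (g : ℤ) < g := Int.emod_lt_of_pos _ (by omega)
    have hr0 : k % (g : ℤ) ≠ 0 := fun h => hdvd (Int.dvd_of_emod_eq_zero h)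
    refine Nat.find_min hex (m := (k % (g : ℤ)).natAbs) (by omega) ⟨by omega, x / ϖ ^ (k / g),
      div_mem hx (zpow_mem hϖK _), div_ne_zero hx0 (zpow_ne_zero _ hϖ0), ?_⟩
    rw [map_div₀, map_zpow₀, div_pow, hk, ← zpow_natCast (v ϖ ^ (k / (g : ℤ))), ← zpow_mul,
      mul_comm, zpow_mul, zpow_natCast, hϖ, ← zpow_mul, ← zpow_sub₀ h0]
    congr 1
    rw [Int.natAbs_of_nonneg hr, Int.emod_def]
  have hval : ∀ x ∈ rFld A L, x ≠ 0 → ∃ k : ℤ, v x = v ϖ ^ k := by
    intro x hx hx0
    obtain ⟨k, hk⟩ := exists_pow_val hq hA hx hx0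
    obtain ⟨s, rfl⟩ := hcyc x hx hx0 k hk
    refine ⟨s, hroot ?_⟩
    rw [hk, ← zpow_natCast (v ϖ ^ s), ← zpow_mul, mul_comm s, zpow_mul (v ϖ), zpow_natCast, hϖ,
      ← zpow_mul]
  have hϖlt : v ϖ < 1 := by
    by_contra h
    push Not at h
    have h2 : 1 ≤ v ϖ ^ D := one_le_pow₀ h
    rw [hϖ, zpow_natCast] at h2
    exact absurd h2 (not_le.mpr (pow_lt_one₀ zero_le h1 hg.ne'))
  refine ⟨⟨⟨ϖ, hϖK⟩, (A.valuation_le_one_iff _).mp hϖlt.le⟩, D / g, ?_⟩
  obtain ⟨e, he⟩ := hcyc (q : Qb) (natCast_mem _ q) (Nat.cast_ne_zero.mpr hq.ne_zero) D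
    (by rw [zpow_natCast])
  have he0 : 0 < e := by nlinarith [(show (0 : ℤ) < D by exact_mod_cast hD)]
  obtain ⟨e', rfl⟩ := Int.eq_ofNat_of_zero_le he0.le
  have heq : D = g * e' := by exact_mod_cast he
  rw [heq, Nat.mul_div_cancel_left _ hg]
  refine ⟨by omega, hroot ?_, hval⟩
  show (v ϖ ^ e') ^ D = _
  rw [← pow_mul, mul_comm, pow_mul, hϖ, zpow_natCast, ← pow_mul, ← heq]

/-- The chosen uniformiser. -/
def rUnif : rBase A L := (exists_uniformiser hq hA (L := L)).choose

/-- The index of ramification. -/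
def rIdx : ℕ := (exists_uniformiser hq hA (L := L)).choose_spec.choose

local notation "ϖ" => rUnif (L := L) hq hA
local notation "eR" => rIdx (L := L) hq hA

theorem rIdx_pos : 0 < eR := (exists_uniformiser hq hA (L := L)).choose_spec.choose_spec.1

theorem val_rUnif_pow : A.valuation (rVal A L ϖ) ^ eR = A.valuation (q : Qb) :=
  (exists_uniformiser hq hA (L := L)).choose_spec.choose_spec.2.1

theorem exists_val_rFld {x : Qb} (hx : x ∈ rFld A L) (hx0 : x ≠ 0) :
    ∃ k : ℤ, A.valuation x = A.valuation (rVal A L ϖ) ^ k :=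
  (exists_uniformiser hq hA (L := L)).choose_spec.choose_spec.2.2 x hx hx0

theorem val_rUnif_lt : A.valuation (rVal A L ϖ) < 1 := by
  by_contra h
  push Not at h
  have h2 := one_le_pow₀ (n := eR) h
  rw [val_rUnif_pow hq hA] at h2
  exact absurd h2 (not_le.mpr (val_q_lt hq hA))

theorem rUnif_ne : rVal A L ϖ ≠ 0 := fun h => val_q_zero hq hA (by
  rw [← val_rUnif_pow hq hA (L := L), h, map_zero, zero_pow (rIdx_pos hq hA).ne'])

theorem rBase_dvr : IsDiscreteValuationRing (rBase A L) ∧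
    maximalIdeal (rBase A L) = Ideal.span {ϖ} ∧ Irreducible ϖ :=
  dvr_cut (A := A) (ι := algebraMap (rFld A L) Qb) ϖ (val_rUnif_lt hq hA)
    (fun h => rUnif_ne hq hA (congrArg (algebraMap (rFld A L) Qb) h |>.trans (map_zero _)))
    fun x hx => exists_val_rFld hq hA x.2 fun h => hx (Subtype.ext h)

theorem isAlgClosed_rBase : IsAlgClosed (ResidueField (rBase A L)) := by
  refine isAlgClosed_cut hq hA ?_
  rintro y ⟨n, hn, hy⟩
  exact ⟨algebraMap (inertiaFld A) (rFld A L) ⟨y, root_mem_inertiaFld A hq hA hn hy⟩, rfl⟩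

theorem exists_unit : ∃ u : (rBase A L)ˣ,
    ϖ ^ eR = algebraMap (wBase A) (rBase A L) (q : wBase A) * u := by
  have hq0 : (q : Qb) ≠ 0 := Nat.cast_ne_zero.mpr hq.ne_zero
  have hv : A.valuation (rVal A L ϖ ^ eR / (q : Qb)) = 1 := by
    rw [map_div₀, map_pow, val_rUnif_pow hq hA, div_self (val_q_zero hq hA)]
  let u : rBase A L := ⟨⟨rVal A L ϖ ^ eR / (q : Qb),
    div_mem (pow_mem (rVal_mem_rFld A L ϖ) _) (natCast_mem _ q)⟩,
      (A.valuation_le_one_iff _).mp hv.le⟩
  have hu : IsUnit u := (isUnit_cut_iff _ u).mpr hv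
  refine ⟨hu.unit, rVal_injective A L ?_⟩
  rw [map_pow, map_mul, IsUnit.unit_spec, map_natCast, map_natCast]
  show _ = (q : Qb) * (rVal A L ϖ ^ eR / (q : Qb))
  rw [mul_div_cancel₀ _ hq0]

omit [FiniteDimensional ℚ L] in
theorem exists_valuation_wBase (a : wBase A) (ha : a ≠ 0) :
    ∃ (k : ℕ) (v : (wBase A)ˣ), a = (v : wBase A) * (q : wBase A) ^ k := by
  obtain ⟨hdvr, hm, -⟩ := wBase_props A hq hA
  exact IsDiscreteValuationRing.eq_unit_mul_pow_irreducible ha
    ((IsDiscreteValuationRing.irreducible_iff_uniformizer _).mpr hm)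

omit [FiniteDimensional ℚ L] in
/-- The valuation ring is integral over the unramified base. -/
theorem isIntegral_rBase (x : rBase A L) : IsIntegral (wBase A) x := by
  classical
  have hfin : (Set.range fun σ : A.inertiaSubgroupIn ℚ => (σ : GQ) (rVal A L x)).Finite := by
    refine ((minpoly ℚ (rVal A L x)).rootSet_finite Qb).subset ?_
    rintro _ ⟨σ, rfl⟩
    rw [Polynomial.mem_rootSet]
    exact ⟨minpoly.ne_zero (Algebra.IsIntegral.isIntegral _),
      by rw [Polynomial.aeval_algHom_apply, minpoly.aeval, map_zero]⟩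
  set s := hfin.toFinset with hs
  let P : Qb[X] := ∏ y ∈ s, (X - C y)
  have hA' : ∀ y ∈ s, y ∈ A := fun y hy => by
    obtain ⟨⟨σ, hσ⟩, rfl⟩ := hfin.mem_toFinset.mp hy
    obtain ⟨g, -, rfl⟩ := hσ
    exact (g • (⟨_, rVal_mem A L x⟩ : A)).2
  have hfix : ∀ σ ∈ A.inertiaSubgroupIn ℚ, P.map (σ : Qb →+* Qb) = P := by
    intro σ hσ
    rw [Polynomial.map_prod]
    refine Finset.prod_equiv σ.toEquiv (fun y => ?_) fun y _ => by simp
    simp only [hs, Set.Finite.mem_toFinset, Set.mem_range]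
    constructor
    · rintro ⟨τ, rfl⟩; exact ⟨⟨σ, hσ⟩ * τ, rfl⟩
    · rintro ⟨τ, hτ⟩
      refine ⟨⟨σ, hσ⟩⁻¹ * τ, σ.injective ?_⟩
      show σ (σ⁻¹ ((τ : GQ) _)) = _
      rw [show σ (σ⁻¹ ((τ : GQ) (rVal A L x))) = (τ : GQ) (rVal A L x) from σ.apply_symm_apply _]
      exact hτ
  let ιW : wBase A →+* Qb := (rVal A L).comp (algebraMap (wBase A) (rBase A L))
  have hcoeff : P ∈ lifts ιW := by
    refine (lifts_iff_coeff_lifts P).mpr fun i => ?_
    have h1 : P.coeff i ∈ inertiaFld A := (mem_inertiaFld A).mpr fun σ hσ => by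
      conv_rhs => rw [← hfix σ hσ]
      rw [Polynomial.coeff_map]
      rfl
    have h2 : P.coeff i ∈ A := by
      have hP : P ∈ lifts A.subtype := by
        refine Subsemiring.prod_mem _ fun y hy => ?_
        exact ⟨X - C ⟨y, hA' y hy⟩, by simp⟩
      obtain ⟨a, ha⟩ := (lifts_iff_coeff_lifts P).mp hP i
      rw [← ha]
      exact a.2
    exact ⟨⟨⟨_, h1⟩, h2⟩, rfl⟩
  have hmon : P.Monic := monic_prod_of_monic _ _ fun y _ => monic_X_sub_C y
  obtain ⟨Q, hQ, -, hQm⟩ := lifts_and_natDegree_eq_and_monic hcoeff hmon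
  refine ⟨Q, hQm, rVal_injective A L ?_⟩
  rw [map_zero, Polynomial.hom_eval₂, ← Polynomial.eval_map, show (rVal A L).comp
    (algebraMap (wBase A) (rBase A L)) = ιW from rfl, hQ, Polynomial.eval_prod]
  exact Finset.prod_eq_zero (i := rVal A L x) (hfin.mem_toFinset.mpr ⟨1, rfl⟩) (by simp)

theorem finite_rBase : Module.Finite (wBase A) (rBase A L) := by
  obtain ⟨hdvr, -, -⟩ := wBase_props A hq hA
  haveI : IsIntegralClosure (rBase A L) (wBase A) (rFld A L) :=
    { algebraMap_injective := Subtype.val_injective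
      isIntegral_iff := fun {y} => by
        constructor
        · intro hy
          refine ⟨⟨y, ?_⟩, rfl⟩
          obtain ⟨P, hP, hPy⟩ := hy
          have h1 : IsIntegral (rBase A L) y := by
            refine ⟨P.map (algebraMap (wBase A) (rBase A L)), hP.map _, ?_⟩
            rw [eval₂_map, ← IsScalarTower.algebraMap_eq]
            exact hPy
          obtain ⟨z, hz⟩ := IsIntegrallyClosed.isIntegral_iff.mp h1
          rw [← hz]
          exact z.2
        · rintro ⟨z, rfl⟩
          exact (isIntegral_rBase hq hA z).map (IsScalarTower.toAlgHom (wBase A) (rBase A L) _) }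
  exact IsIntegralClosure.finite (wBase A) (inertiaFld A) (rFld A L) (rBase A L)

/-- Every element is a combination of the first powers of the uniformiser. -/
theorem exists_rep (a : rBase A L) : ∃ c : Fin eR → wBase A,
    a = ∑ i, algebraMap (wBase A) (rBase A L) (c i) * ϖ ^ (i : ℕ) := by
  haveI := (wBase_props A hq hA).1
  obtain ⟨hdvr, hmax, -⟩ := rBase_dvr (L := L) hq hA
  let N : Submodule (wBase A) (rBase A L) :=
    Submodule.span (wBase A) (Set.range fun i : Fin eR => ϖ ^ (i : ℕ))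
  suffices h : a ∈ N by
    obtain ⟨c, hc⟩ := (Submodule.mem_span_range_iff_exists_fun _).mp h
    exact ⟨c, by simp only [← hc, Algebra.smul_def]⟩
  have hstep : ∀ z : rBase A L, ∃ (w : wBase A) (z' : rBase A L),
      z = algebraMap _ _ w + ϖ * z' := by
    intro z
    have hex : ∃ w : wBase A, z - algebraMap _ _ w ∈ maximalIdeal (rBase A L) := by
      by_cases hz : z ∈ maximalIdeal (rBase A L)
      · exact ⟨0, by rwa [map_zero, sub_zero]⟩
      · have hu : IsUnit z := notMem_maximalIdeal.mp hz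
        have hr : residue A (cutHom (A := A) (algebraMap (rFld A L) Qb) z) ≠ 0 :=
          (residue_ne_zero_iff_isUnit _).mpr
            (hu.map (cutHom (A := A) (algebraMap (rFld A L) Qb)))
        obtain ⟨y, ⟨n, hn, hy⟩, hres⟩ := GalRep.Model.exists_root_residue A hq hA _ hr
        refine ⟨⟨⟨(y : Qb), root_mem_inertiaFld A hq hA hn hy⟩, y.2⟩, ?_⟩
        rw [mem_maximalIdeal_rBase, map_sub, rVal_algebraMap, ← A.mem_nonunits_iff]
        rw [eq_comm, ← sub_eq_zero, ← map_sub, residue_eq_zero_iff] at hres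
        exact A.coe_mem_nonunits_iff.mpr hres
    obtain ⟨w, hw⟩ := hex
    rw [hmax, Ideal.mem_span_singleton] at hw
    obtain ⟨z', hz'⟩ := hw
    exact ⟨w, z', by rw [← hz']; ring⟩
  have happ : ∀ j ≤ eR, ∀ z : rBase A L, ∃ b ∈ N, ∃ z', z = b + ϖ ^ j * z' := by
    intro j
    induction j with
    | zero => exact fun _ z => ⟨0, N.zero_mem, z, by simp⟩
    | succ j ih =>
      intro hj z
      obtain ⟨b, hb, z', rfl⟩ := ih (by omega) z
      obtain ⟨w, z'', rfl⟩ := hstep z'
      refine ⟨b + algebraMap _ _ w * ϖ ^ j, N.add_mem hb ?_, z'', by ring⟩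
      rw [← Algebra.smul_def]
      exact N.smul_mem w (Submodule.subset_span ⟨⟨j, by omega⟩, rfl⟩)
  have hfg : (⊤ : Submodule (wBase A) (rBase A L)).FG := (finite_rBase hq hA).fg_top
  refine Submodule.le_of_le_smul_of_le_jacobson_bot (I := maximalIdeal (wBase A)) (N := N) hfg
    (IsLocalRing.jacobson_eq_maximalIdeal _ bot_ne_top).ge (fun z _ => ?_) (Submodule.mem_top (x := a))
  obtain ⟨b, hb, z', rfl⟩ := happ eR le_rfl z
  refine Submodule.add_mem_sup hb ?_
  obtain ⟨u, hu⟩ := exists_unit (L := L) hq hA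
  rw [hu, mul_assoc, ← Algebra.smul_def]
  refine Submodule.smul_mem_smul ?_ Submodule.mem_top
  rw [(wBase_props A hq hA).2.1]
  exact Ideal.mem_span_singleton_self _

/-- The powers of the uniformiser are independent over the inertia field. -/
theorem indep_rUnif (c : Fin eR → inertiaFld A)
    (h : ∑ i, (c i : Qb) * rVal A L ϖ ^ (i : ℕ) = 0) : c = 0 := by
  by_contra hne
  obtain ⟨i, j, hij, a, b, hab⟩ := exists_two_terms hq hA
    (fun i : Fin eR => rVal A L ϖ ^ (i : ℕ)) (fun i => pow_ne_zero _ (rUnif_ne hq hA)) c h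
    (Function.ne_iff.mp hne)
  simp only [map_pow] at hab
  simp only [← val_rUnif_pow hq hA (L := L), ← zpow_natCast] at hab
  have hv0 : A.valuation (rVal A L ϖ) ≠ 0 := by simpa using rUnif_ne (L := L) hq hA
  rw [← zpow_mul, ← zpow_mul, ← zpow_add₀ hv0, ← zpow_add₀ hv0] at hab
  have h2 := (zpow_right_strictAnti₀ (zero_lt_iff.mpr hv0) (val_rUnif_lt hq hA)).injective hab
  refine hij (Fin.ext ?_)
  have hd : (eR : ℤ) ∣ (i : ℤ) - j := ⟨b - a, by linear_combination h2⟩
  have hlt : (((i : ℤ) - j)).natAbs < eR := by omega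
  have := Nat.eq_zero_of_dvd_of_lt (Int.natCast_dvd.mp hd) hlt
  omega

theorem finrank_rFld_le : Module.finrank (inertiaFld A) (rFld A L) ≤ eR := by
  have hspan : (⊤ : Submodule (inertiaFld A) (rFld A L)) ≤ Submodule.span (inertiaFld A)
      (Set.range fun i : Fin eR => ((ϖ : rBase A L) : rFld A L) ^ (i : ℕ)) := by
    rintro x -
    rcases (rBase A L).mem_or_inv_mem x with h | h
    · obtain ⟨c, hc⟩ := exists_rep hq hA (⟨x, h⟩ : rBase A L)
      refine (Submodule.mem_span_range_iff_exists_fun _).mpr ⟨fun i => (c i : inertiaFld A), ?_⟩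
      conv_rhs => rw [show x = (rBase A L).subtype ⟨x, h⟩ from rfl, hc]
      rw [map_sum]
      refine Finset.sum_congr rfl fun i _ => ?_
      rw [map_mul, map_pow, Algebra.smul_def]
      rfl
    · rcases eq_or_ne x 0 with rfl | hx0
      · exact Submodule.zero_mem _
      obtain ⟨k, hk⟩ := exists_val_rFld hq hA x.2 fun e => hx0 (Subtype.ext e)
      -- clear a power of `q`
      set n := k.natAbs
      have hqn : x * (q : rFld A L) ^ n ∈ rBase A L := by
        show ((x * (q : rFld A L) ^ n : rFld A L) : Qb) ∈ A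
        rw [← A.valuation_le_one_iff]
        push_cast
        rw [map_mul, map_pow, hk, ← val_rUnif_pow hq hA (L := L), ← pow_mul, ← zpow_natCast,
          ← zpow_add₀ (by simpa using rUnif_ne (L := L) hq hA)]
        refine (zpow_le_zpow_right_of_le_one₀ (zero_lt_iff.mpr (by simpa using rUnif_ne (L := L) hq hA))
          (val_rUnif_lt hq hA).le (m := 0) ?_).trans (zpow_zero _).le
        have h1 : (1 : ℤ) ≤ eR := by exact_mod_cast rIdx_pos (L := L) hq hA
        push_cast
        nlinarith [neg_abs_le k, Int.natCast_natAbs k, abs_nonneg k]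
      obtain ⟨c, hc⟩ := exists_rep hq hA (⟨_, hqn⟩ : rBase A L)
      refine (Submodule.mem_span_range_iff_exists_fun _).mpr
        ⟨fun i => (c i : inertiaFld A) / (q : inertiaFld A) ^ n, ?_⟩
      have hq0 : (q : rFld A L) ≠ 0 := Nat.cast_ne_zero.mpr hq.ne_zero
      refine mul_right_cancel₀ (pow_ne_zero n hq0) ?_
      conv_rhs => rw [show x * (q : rFld A L) ^ n = (rBase A L).subtype ⟨_, hqn⟩ from rfl, hc]
      rw [map_sum, Finset.sum_mul]
      refine Finset.sum_congr rfl fun i _ => ?_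
      rw [map_mul, map_pow, Algebra.smul_def, map_div₀, map_pow, map_natCast]
      field_simp
      rfl
  calc Module.finrank (inertiaFld A) (rFld A L)
      = Module.finrank (inertiaFld A) (⊤ : Submodule (inertiaFld A) (rFld A L)) := (finrank_top _ _).symm
    _ ≤ _ := Submodule.finrank_mono hspan
    _ ≤ Fintype.card (Fin eR) := finrank_range_le_card _
    _ = eR := Fintype.card_fin _

variable [Normal ℚ L]

omit hq hA [FiniteDimensional ℚ L] in
/-- The action of inertia. -/
theorem exists_rAct {σ : GQ} (hσ : σ ∈ A.inertiaSubgroupIn ℚ) (x : rBase A L) :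
    ∃ y : rBase A L, rVal A L y = σ (rVal A L x) := by
  obtain ⟨g, -, hg⟩ := id hσ
  refine ⟨⟨⟨σ (rVal A L x), mem_rFld_apply A L hσ (x : rFld A L).2⟩, ?_⟩, rfl⟩
  show σ (rVal A L x) ∈ A
  rw [← hg]
  exact (g • (⟨_, rVal_mem A L x⟩ : A)).2

omit hq hA [FiniteDimensional ℚ L]

/-- An element of inertia on the ring. -/
def rAct (L : IntermediateField ℚ (AlgebraicClosure ℚ)) [Normal ℚ L]
    (σ : A.inertiaSubgroupIn ℚ) : rBase A L ≃+* rBase A L where
  toFun x := (exists_rAct σ.2 x).choose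
  invFun x := (exists_rAct (σ⁻¹).2 x).choose
  left_inv x := rVal_injective A L (by
    rw [(exists_rAct (σ⁻¹).2 _).choose_spec, (exists_rAct σ.2 x).choose_spec]
    exact (σ : GQ).symm_apply_apply _)
  right_inv x := rVal_injective A L (by
    rw [(exists_rAct σ.2 _).choose_spec, (exists_rAct (σ⁻¹).2 x).choose_spec]
    exact (σ : GQ).apply_symm_apply _)
  map_mul' x y := rVal_injective A L (by
    refine (exists_rAct σ.2 (x * y)).choose_spec.trans ?_
    conv_rhs => rw [map_mul (rVal A L)]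
    rw [(exists_rAct σ.2 x).choose_spec,
      (exists_rAct σ.2 y).choose_spec, map_mul, map_mul])
  map_add' x y := rVal_injective A L (by
    refine (exists_rAct σ.2 (x + y)).choose_spec.trans ?_
    conv_rhs => rw [map_add (rVal A L)]
    rw [(exists_rAct σ.2 x).choose_spec,
      (exists_rAct σ.2 y).choose_spec, map_add, map_add])

theorem rVal_rAct (σ : A.inertiaSubgroupIn ℚ) (x : rBase A L) :
    rVal A L (rAct L σ x) = (σ : GQ) (rVal A L x) := (exists_rAct σ.2 x).choose_spec

theorem rAct_sub_mem (σ : A.inertiaSubgroupIn ℚ) (x : rBase A L) :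
    rAct L σ x - x ∈ maximalIdeal (rBase A L) := by
  obtain ⟨⟨g, hdec⟩, hg, hgσ⟩ := σ.2
  rw [mem_maximalIdeal_rBase, map_sub, rVal_rAct, ← hgσ, ← A.mem_nonunits_iff]
  let y : A := ⟨_, rVal_mem A L x⟩
  have h1 : residue A ((⟨g, hdec⟩ : A.decompositionSubgroup ℚ) • y) = residue A y :=
    (ResidueField.residue_smul (A.decompositionSubgroup ℚ)
      (⟨g, hdec⟩ : A.decompositionSubgroup ℚ) y).trans
        (RingEquiv.congr_fun (MonoidHom.mem_ker.1 hg) (residue A y))
  rw [← sub_eq_zero, ← map_sub, residue_eq_zero_iff] at h1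
  exact A.coe_mem_nonunits_iff.mpr h1

include hq hA

theorem exists_rAct_sub [FiniteDimensional ℚ L] (σ : A.inertiaSubgroupIn ℚ) (x : rBase A L) :
    ∃ a, rAct L σ x - x = ϖ * a := by
  have h := rAct_sub_mem σ x
  rw [(rBase_dvr hq hA).2.1, Ideal.mem_span_singleton] at h
  exact h

theorem exists_rAct_rUnif [FiniteDimensional ℚ L] (σ : A.inertiaSubgroupIn ℚ) :
    ∃ v : (rBase A L)ˣ, rAct L σ ϖ = ϖ * v := by
  obtain ⟨hdvr, -, hirr⟩ := rBase_dvr (L := L) hq hA
  obtain ⟨v, hv⟩ := IsDiscreteValuationRing.associated_of_irreducible _ hirr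
    (hirr.map (rAct L σ))
  exact ⟨v, hv.symm⟩

/-! ## The embedding -/

omit hq hA

omit [FiniteDimensional ℚ L] [Normal ℚ L] in
/-- The embedding of the ramified base. -/
def embR (A : ValuationSubring (AlgebraicClosure ℚ))
    (L : IntermediateField ℚ (AlgebraicClosure ℚ)) {M : ℕ} [NeZero M] (hζ : zetaQ M ∈ L) :
    Emb (rBase A L) M where
  φ := qbarToC.comp (rVal A L)
  inj := qbarToC.injective.comp (rVal_injective A L)
  ζ := ⟨⟨zetaQ M, mem_rFld_of_mem A L hζ⟩,
    integralClosure_le A (⟨zetaQ M, (isPrimitiveRoot_zetaQ M).isIntegral (NeZero.pos M)⟩ : ZBar)⟩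
  map_ζ := map_zetaQ M

variable {M : ℕ} [NeZero M] (hζ : zetaQ M ∈ L)

omit [FiniteDimensional ℚ L] [Normal ℚ L] in
theorem embR_φ (a : rBase A L) : (embR A L hζ).φ a = qbarToC (rVal A L a) := rfl

omit [FiniteDimensional ℚ L] [Normal ℚ L] in
theorem mem_embR_K {c : ℂ} : c ∈ (embR A L hζ).K ↔ ∃ x ∈ rFld A L, qbarToC x = c := by
  constructor
  · intro hc
    refine (Subfield.closure_le (t := (rFld A L).toSubfield.map qbarToC)).mpr ?_ hc
    rintro _ ⟨a, rfl⟩
    exact ⟨((a : rFld A L) : Qb), (a : rFld A L).2, rfl⟩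
  · rintro ⟨x, hx, rfl⟩
    rcases A.mem_or_inv_mem x with h | h
    · exact (embR A L hζ).φ_mem ⟨⟨x, hx⟩, h⟩
    · have := Subfield.inv_mem _ ((embR A L hζ).φ_mem ⟨⟨x⁻¹, inv_mem hx⟩, h⟩)
      change (qbarToC x⁻¹)⁻¹ ∈ _ at this
      rwa [map_inv₀, inv_inv] at this

omit [FiniteDimensional ℚ L] [Normal ℚ L] in
theorem embO_K_le : (embO A M).K ≤ (embR A L hζ).K := fun c hc => by
  obtain ⟨x, hx, rfl⟩ := (mem_embO_K A M).mp hc
  exact (mem_embR_K hζ).mpr ⟨x, oFld_le_rFld A L M hζ hx, rfl⟩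

theorem liftAut_mem_stabK (σ : A.inertiaSubgroupIn ℚ) :
    liftAut (σ : GQ) ∈ stabK (embR A L hζ) := by
  rw [mem_stabK]
  intro c
  simp only [mem_embR_K hζ]
  constructor
  · rintro ⟨x, hx, he⟩
    refine ⟨((σ⁻¹ : A.inertiaSubgroupIn ℚ) : GQ) x, mem_rFld_apply A L (σ⁻¹).2 hx,
      (liftAut (σ : GQ)).injective ?_⟩
    rw [liftAut_spec, ← he]
    exact congrArg qbarToC ((σ : GQ).apply_symm_apply x)
  · rintro ⟨x, hx, rfl⟩
    exact ⟨(σ : GQ) x, mem_rFld_apply A L σ.2 hx, (liftAut_spec (σ : GQ) x).symm⟩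

end Fermat.Agent.GalRep.InertiaBase
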