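/-
Automorphisms over the inertia field agree with elements of inertia on every finite level.
-/
import Fermat.Agent.GalRep.InertiaBase.Ring

set_option autoImplicit false
set_option linter.style.haveILetI false
set_option linter.unusedSectionVars false

noncomputable section

namespace Fermat.Agent.GalRep.InertiaBase

open Fermat.Agent.Galois
open Fermat.Agent.NewVec

local notation "Qb" => AlgebraicClosure ℚ

variable (A : ValuationSubring (AlgebraicClosure ℚ))
  (L : IntermediateField ℚ (AlgebraicClosure ℚ)) [Normal ℚ L]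

/-- Inertia on the compositum. -/
def rFldHom : A.inertiaSubgroupIn ℚ →* RingAut (rFld A L) where
  toFun σ :=
    { toFun := fun x => ⟨(σ : GQ) (x : Qb), mem_rFld_apply A L σ.2 x.2⟩
      invFun := fun x => ⟨((σ⁻¹ : A.inertiaSubgroupIn ℚ) : GQ) (x : Qb),
        mem_rFld_apply A L (σ⁻¹).2 x.2⟩
      left_inv := fun x => Subtype.ext ((σ : GQ).symm_apply_apply _)
      right_inv := fun x => Subtype.ext ((σ : GQ).apply_symm_apply _)
      map_mul' := fun _ _ => Subtype.ext (map_mul (σ : GQ) _ _)
      map_add' := fun _ _ => Subtype.ext (map_add (σ : GQ) _ _) }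
  map_one' := RingEquiv.ext fun _ => Subtype.ext rfl
  map_mul' _ _ := RingEquiv.ext fun _ => Subtype.ext rfl

theorem coe_rFldHom (σ : A.inertiaSubgroupIn ℚ) (x : rFld A L) :
    ((rFldHom A L σ x : rFld A L) : Qb) = (σ : GQ) (x : Qb) := rfl

theorem finite_range_rFldHom [FiniteDimensional ℚ L] : Finite (rFldHom A L).range := by
  have hex : ∀ g : (rFldHom A L).range, ∃ σ, rFldHom A L σ = g.1 := fun g => g.2
  choose s hs using hex
  refine Finite.of_injective (fun g : (rFldHom A L).range =>
    ({ ((s g : GQ) : Qb →+* Qb).comp (algebraMap (rFld A L) Qb) with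
      commutes' := fun c => (mem_inertiaFld A).mp c.2 _ (s g).2 } :
        rFld A L →ₐ[inertiaFld A] Qb)) fun g g' h => Subtype.ext ?_
  rw [← hs g, ← hs g']
  exact RingEquiv.ext fun x => Subtype.ext (DFunLike.congr_fun h x)

/-- An automorphism fixing the inertia field agrees with an element of inertia on `L`. -/
theorem exists_inertia_eq [FiniteDimensional ℚ L] {σ : GQ} (hσ : ∀ y ∈ inertiaFld A, σ y = y) :
    ∃ s ∈ A.inertiaSubgroupIn ℚ, ∀ x ∈ rFld A L, s x = σ x := by
  haveI := finite_range_rFldHom A L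
  haveI : Fintype (rFldHom A L).range := Fintype.ofFinite _
  have hmap : ∀ x ∈ rFld A L, σ x ∈ rFld A L := fun x hx => by
    induction hx using IntermediateField.adjoin_induction with
    | mem x hx =>
      refine mem_rFld_of_mem A L ?_
      have h := AlgEquiv.restrictNormal_commutes σ L ⟨x, hx⟩
      change _ = σ x at h
      rw [← h]
      exact (σ.restrictNormal L ⟨x, hx⟩).2
    | algebraMap x =>
      rw [show σ (algebraMap (inertiaFld A) Qb x) = (x : Qb) from hσ x x.2]
      exact inertia_mem_rFld A L x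
    | add x y _ _ hx hy => rw [map_add]; exact add_mem hx hy
    | inv x _ hx => rw [map_inv₀]; exact inv_mem hx
    | mul x y _ _ hx hy => rw [map_mul]; exact mul_mem hx hy
  -- the fixed field is the inertia field
  have hfix : ∀ y : FixedPoints.subfield (rFldHom A L).range (rFld A L),
      ((y : rFld A L) : Qb) ∈ inertiaFld A := fun y =>
    (mem_inertiaFld A).mpr fun s hs =>
      congrArg (fun z : rFld A L => (z : Qb)) (y.2 ⟨_, ⟨⟨s, hs⟩, rfl⟩⟩)
  let f : rFld A L →ₐ[FixedPoints.subfield (rFldHom A L).range (rFld A L)] rFld A L :=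
    { toFun := fun x => ⟨σ (x : Qb), hmap x x.2⟩
      map_one' := Subtype.ext (map_one σ)
      map_mul' := fun _ _ => Subtype.ext (map_mul σ _ _)
      map_zero' := Subtype.ext (map_zero σ)
      map_add' := fun _ _ => Subtype.ext (map_add σ _ _)
      commutes' := fun y => Subtype.ext (hσ _ (hfix y)) }
  obtain ⟨⟨g, s, rfl⟩, hg⟩ :=
    (FixedPoints.toAlgHom_bijective (rFldHom A L).range (rFld A L)).2 f
  exact ⟨s, s.2, fun x hx => congrArg (fun z : rFld A L => (z : Qb))
    (DFunLike.congr_fun hg (⟨x, hx⟩ : rFld A L))⟩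

/-- An element fixed by the inertia elements fixing `L` lies in the compositum. -/
theorem mem_rFld_of_fixed [FiniteDimensional ℚ L] {φ : Qb}
    (hφ : ∀ s ∈ A.inertiaSubgroupIn ℚ, (∀ x ∈ L, s x = x) → s φ = φ) : φ ∈ rFld A L := by
  haveI : Normal ℚ Qb := IsGalois.to_normal
  haveI : Normal (inertiaFld A) Qb := Normal.tower_top_of_normal ℚ _ _
  haveI : IsGalois (inertiaFld A) Qb := ⟨⟩
  haveI : FiniteDimensional ℚ (IntermediateField.adjoin ℚ ({φ} : Set Qb)) :=
    IntermediateField.adjoin.finiteDimensional (Algebra.IsIntegral.isIntegral (R := ℚ) φ)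
  let L' : IntermediateField ℚ Qb :=
    IntermediateField.normalClosure ℚ ↥(L ⊔ IntermediateField.adjoin ℚ ({φ} : Set Qb)) Qb
  haveI : FiniteDimensional ℚ L' := normalClosure.is_finiteDimensional ℚ _ Qb
  haveI : Normal ℚ L' := normalClosure.normal ℚ _ Qb
  have hle : L ⊔ IntermediateField.adjoin ℚ ({φ} : Set Qb) ≤ L' :=
    IntermediateField.le_normalClosure _
  rw [← InfiniteGalois.fixedField_fixingSubgroup (rFld A L), IntermediateField.mem_fixedField_iff]
  intro g hg
  obtain ⟨s, hs, hsg⟩ := exists_inertia_eq A L' (σ := g.restrictScalars ℚ)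
    fun y hy => g.commutes ⟨y, hy⟩
  refine (hsg φ (mem_rFld_of_mem A L' (hle (le_sup_right (a := L)
    (IntermediateField.mem_adjoin_simple_self ℚ φ))))).symm.trans (hφ s hs fun x hx => ?_)
  rw [hsg x (mem_rFld_of_mem A L' (hle (le_sup_left
    (b := IntermediateField.adjoin ℚ ({φ} : Set Qb)) hx)))]
  exact (IntermediateField.mem_fixingSubgroup_iff _ _).mp hg x (mem_rFld_of_mem A L hx)

end Fermat.Agent.GalRep.InertiaBase
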