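/-
Exports for the ramified base: existence, the degree, the tame part of the index.
-/
import Fermat.Agent.GalRep.InertiaBase.Ring

set_option autoImplicit false
set_option linter.style.haveILetI false
set_option linter.unusedSectionVars false

noncomputable section

namespace Fermat.Agent.GalRep.InertiaBase

open IsLocalRing
open Fermat.Agent.Galois
open Fermat.Agent.NewVec

local notation "Qb" => AlgebraicClosure ℚ

/-- A finite normal field containing given numbers and a primitive root of unity. -/
theorem exists_field (M : ℕ) [NeZero M] {S : Set Qb} (hS : S.Finite) :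
    ∃ (L : IntermediateField ℚ Qb) (_ : FiniteDimensional ℚ L) (_ : Normal ℚ L),
      S ⊆ L ∧ zetaQ M ∈ L := by
  haveI : FiniteDimensional ℚ (IntermediateField.adjoin ℚ (insert (zetaQ M) S)) := by
    haveI : Finite (insert (zetaQ M) S : Set Qb) := (hS.insert _).to_subtype
    exact IntermediateField.finiteDimensional_adjoin fun x _ =>
      Algebra.IsIntegral.isIntegral (R := ℚ) x
  haveI : Normal ℚ Qb := IsGalois.to_normal
  refine ⟨IntermediateField.normalClosure ℚ (IntermediateField.adjoin ℚ (insert (zetaQ M) S)) Qb,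
    inferInstance, normalClosure.normal ℚ _ Qb, ?_, ?_⟩
  · exact fun x hx => IntermediateField.le_normalClosure _
      (IntermediateField.subset_adjoin _ _ (Set.mem_insert_of_mem _ hx))
  · exact IntermediateField.le_normalClosure _
      (IntermediateField.subset_adjoin _ _ (Set.mem_insert _ _))

variable {A : ValuationSubring (AlgebraicClosure ℚ)} {L : IntermediateField ℚ (AlgebraicClosure ℚ)}
  [FiniteDimensional ℚ L] {q : ℕ} (hq : q.Prime) (hA : A.LiesOverPrime q)
include hq hA

/-- The index is the degree over the inertia field. -/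
theorem finrank_rFld : Module.finrank (inertiaFld A) (rFld A L) = rIdx (L := L) hq hA := by
  refine le_antisymm (finrank_rFld_le hq hA) ?_
  have h : LinearIndependent (inertiaFld A)
      (fun i : Fin (rIdx (L := L) hq hA) => ((rUnif hq hA : rBase A L) : rFld A L) ^ (i : ℕ)) := by
    refine Fintype.linearIndependent_iff.mpr fun c hc => congrFun (indep_rUnif hq hA c ?_)
    have h1 := congrArg (algebraMap (rFld A L) Qb) hc
    rw [map_sum, map_zero] at h1
    rw [← h1]
    refine Finset.sum_congr rfl fun i _ => ?_
    rw [Algebra.smul_def, map_mul, map_pow]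
    rfl
  simpa using h.fintype_card_le_finrank

theorem val_natCast_eq_one {n : ℕ} (hn : ¬ q ∣ n) : A.valuation (n : Qb) = 1 := by
  obtain ⟨a, b, hab⟩ := Int.isCoprime_iff_gcd_eq_one.mpr
    (show Int.gcd (n : ℤ) (q : ℤ) = 1 by
      rw [Int.gcd_natCast_natCast]; exact (hq.coprime_iff_not_dvd.mpr hn).symm)
  have hle : ∀ k : ℤ, A.valuation (k : Qb) ≤ 1 := fun k =>
    (A.valuation_le_one_iff _).mpr (intCast_mem A k)
  refine le_antisymm (by exact_mod_cast hle n) ?_
  by_contra h
  push Not at h
  have h1 : A.valuation (((a * n + b * q : ℤ)) : Qb) < 1 := by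
    push_cast
    refine (A.valuation.map_add _ _).trans_lt (max_lt ?_ ?_) <;> rw [map_mul]
    · exact mul_lt_one_of_nonneg_of_lt_one_right (hle a) zero_le h
    · exact mul_lt_one_of_nonneg_of_lt_one_right (hle b) zero_le (val_q_lt hq hA)
  rw [hab, Int.cast_one, map_one] at h1
  exact lt_irrefl _ h1

/-- The wild and tame parts of the index, with the roots of unity of tame order. -/
theorem exists_tame_split :
    ∃ e' k : ℕ, rIdx (L := L) hq hA = e' * q ^ k ∧ ¬ q ∣ e' ∧ IsUnit (e' : rBase A L) ∧
      ∃ ζ : wBase A, IsPrimitiveRoot ζ e' := by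
  obtain ⟨k, e', hne, he⟩ :=
    Nat.exists_eq_pow_mul_and_not_dvd (rIdx_pos (L := L) hq hA).ne' q hq.ne_one
  have he0 : e' ≠ 0 := fun h => hne (h ▸ dvd_zero q)
  refine ⟨e', k, by rw [he, mul_comm], hne, ?_, ?_⟩
  · refine (isUnit_cut_iff (algebraMap (rFld A L) Qb) _).mpr ?_
    show A.valuation (rVal A L (e' : rBase A L)) = 1
    rw [map_natCast]
    exact val_natCast_eq_one hq hA hne
  · haveI : NeZero e' := ⟨he0⟩
    have hz := isPrimitiveRoot_zetaQ e'
    let ζ : wBase A := ⟨⟨zetaQ e', root_mem_inertiaFld A hq hA hne hz.pow_eq_one⟩,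
      integralClosure_le A (⟨zetaQ e', hz.isIntegral (NeZero.pos e')⟩ : ZBar)⟩
    exact ⟨ζ, hz.of_map_of_injective (f := ((algebraMap (inertiaFld A) Qb).comp (wBase A).subtype))
      ((algebraMap (inertiaFld A) Qb).injective.comp Subtype.val_injective)⟩

end Fermat.Agent.GalRep.InertiaBase
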