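/-
The descended function field over the ramified base: a totally ramified extension of the field over
the inertia field, with the action of inertia fixing the latter.
-/
import Fermat.Agent.GalRep.InertiaBase.Ring
import Fermat.Agent.GalRep.Semistable.Base
import Fermat.Agent.Models.BaseChange

set_option autoImplicit false
set_option linter.style.haveILetI false
set_option linter.unusedSectionVars false

noncomputable section

namespace Fermat.Agent.GalRep.InertiaBase

open IsLocalRing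
open Fermat.Agent.Galois (GQ)
open Fermat.Agent.GalRep.Level
open Fermat.Agent.GalRep.Semistable (hasFixedConsts_oBase)
open Fermat.Agent.ModField
open Fermat.Agent.NewVec
open Fermat.Agent.Models (TotRam)
open scoped MatrixGroups

local notation "Qb" => AlgebraicClosure ℚ

/-! ## Enlarging the constants -/

section Incl

variable {O O' : Type} [CommRing O] [IsDomain O] [CommRing O'] [IsDomain O'] {M : ℕ} [NeZero M]
  {E : Emb O M} {E' : Emb O' M} (hK : E.K ≤ E'.K)

theorem serAlg_mem_kSer (a : bddMF E) : serAlg M (a : MF M) ∈ kSer E.K := by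
  have h := E.sFld_le ((mem_bddMF E).mp a.2 1)
  rwa [shift_one] at h

/-- The inclusion of functions. -/
def bddIncl : bddMF E →+* bddMF E' where
  toFun a := ⟨(a : MF M), bdd_of_kSer E' (kSer_mono hK (serAlg_mem_kSer a))⟩
  map_one' := Subtype.ext rfl
  map_mul' _ _ := Subtype.ext rfl
  map_zero' := Subtype.ext rfl
  map_add' _ _ := Subtype.ext rfl

theorem coe_bddIncl (a : bddMF E) : ((bddIncl hK a : bddMF E') : MF M) = (a : MF M) :=
  (Subtype.coe_mk (a : MF M) (bdd_of_kSer E' (kSer_mono hK (serAlg_mem_kSer a))) : _)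

theorem bddIncl_injective : Function.Injective (bddIncl hK) := fun a b h => Subtype.ext (by
  rw [← coe_bddIncl hK a, ← coe_bddIncl hK b, h])

/-- The inclusion of fields. -/
def fldMap : Fld E →+* Fld E' :=
  IsFractionRing.lift (A := bddMF E) (K := Fld E) (g := (toFld E').comp (bddIncl hK))
    ((toFld_injective E').comp (bddIncl_injective hK))

theorem fldMap_toFld (a : bddMF E) : fldMap hK (toFld E a) = toFld E' (bddIncl hK a) :=
  IsFractionRing.lift_algebraMap (A := bddMF E) (K := Fld E) _ a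

theorem toLS_fldMap (x : Fld E) : toLS E' (fldMap hK x) = toLS E x := by
  obtain ⟨a, b, -, rfl⟩ := exists_eq_div E x
  simp only [map_div₀, fldMap_toFld, toLS_toFld, coe_bddIncl]

theorem fldMap_fShift (g : SL(2, ℤ)) (x : Fld E) :
    fldMap hK (fShift E g x) = fShift E' g (fldMap hK x) := by
  obtain ⟨a, b, -, rfl⟩ := exists_eq_div E x
  have h : ∀ c : bddMF E, bddIncl hK ⟨shift M g c.1, shift_mem_bddMF E c.2 g⟩ =
      ⟨shift M g (bddIncl hK c).1, shift_mem_bddMF E' (bddIncl hK c).2 g⟩ := fun c =>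
    Subtype.ext (by simp only [coe_bddIncl])
  simp only [map_div₀, fShift_toFld, fldMap_toFld, h]

theorem fldMap_jF : fldMap hK (jF E) = jF E' := toLS_injective E' (by
  rw [toLS_fldMap, toLS_jF, toLS_jF])

end Incl

variable {A : ValuationSubring (AlgebraicClosure ℚ)} {L : IntermediateField ℚ (AlgebraicClosure ℚ)}
  {M : ℕ} [NeZero M] {hζ : zetaQ M ∈ L} {q m : ℕ}

/-- The field over the inertia field. -/
abbrev wTop (A : ValuationSubring (AlgebraicClosure ℚ)) (M q m : ℕ) [NeZero M] :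
    Subfield (Fld (embO A M)) :=
  Fld₀ (wBase A) (embO A M) q m

/-- The field over the ramified base. -/
abbrev rTop (A : ValuationSubring (AlgebraicClosure ℚ))
    (L : IntermediateField ℚ (AlgebraicClosure ℚ)) {M : ℕ} [NeZero M] (hζ : zetaQ M ∈ L)
    (q m : ℕ) : Subfield (Fld (embR A L hζ)) :=
  Fld₀ (rBase A L) (embR A L hζ) q m

theorem baseK_self : baseK (rBase A L) (embR A L hζ) = (embR A L hζ).K := rfl

theorem mem_rTop_iff {x : Fld (embR A L hζ)} :
    x ∈ rTop A L hζ q m ↔ ∀ g ∈ levelG q m, fShift (embR A L hζ) g x = x :=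
  ⟨fun h => h.1, fun h => ⟨h, by rw [baseK_self]; exact Emb.sFld_le _ (toLS_mem _ x)⟩⟩

/-- Functions with series over the compositum are functions over the ramified base. -/
theorem mem_bddMF_rBase (hζ : zetaQ M ∈ L) {φ : MF M} {a : LaurentSeries Qb}
    (ha : seriesToC a = serAlg M φ) (h : ∀ k, a.coeff k ∈ rFld A L) :
    φ ∈ bddMF (embR A L hζ) := by
  refine bdd_of_kSer _ (mem_kSer.mpr fun k => (mem_embR_K hζ).mpr ⟨_, h k, ?_⟩)
  rw [← ha, seriesToC_eq_lmap, lmap_coeff]

/-- The inclusion of the descended fields. -/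
def topMap (hζ : zetaQ M ∈ L) (q m : ℕ) : wTop A M q m →+* rTop A L hζ q m :=
  ((fldMap (embO_K_le (A := A) hζ)).comp (wTop A M q m).subtype).codRestrict (rTop A L hζ q m)
    fun x => mem_rTop_iff.mpr fun g hg => by
      rw [RingHom.comp_apply, ← fldMap_fShift]
      exact congrArg _ (x.2.1 g hg)

instance instAlgebraTop : Algebra (wTop A M q m) (rTop A L hζ q m) := (topMap hζ q m).toAlgebra

theorem toLS_algebraMap_top (x : wTop A M q m) :
    toLS (embR A L hζ) (algebraMap (wTop A M q m) (rTop A L hζ q m) x : Fld (embR A L hζ)) =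
      toLS (embO A M) (x : Fld (embO A M)) :=
  toLS_fldMap _ _

instance instAlgebraWTop : Algebra (wBase A) (rTop A L hζ q m) :=
  ((algebraMap (rBase A L) (rTop A L hζ q m)).comp (algebraMap (wBase A) (rBase A L))).toAlgebra

instance instTowerWRTop : IsScalarTower (wBase A) (rBase A L) (rTop A L hζ q m) :=
  IsScalarTower.of_algebraMap_eq fun _ => rfl

instance instTowerWTop : IsScalarTower (wBase A) (wTop A M q m) (rTop A L hζ q m) :=
  IsScalarTower.of_algebraMap_eq fun w => Subtype.ext (toLS_injective _ (by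
    rw [toLS_algebraMap_top, coe_algebraMap_fld₀, IsScalarTower.algebraMap_apply (wBase A)
      (oBase A M) (Fld (embO A M)), ModField.toLS_algebraMap]
    show toLS _ (algebraMap (rBase A L) (Fld (embR A L hζ)) _) = _
    rw [ModField.toLS_algebraMap]
    rfl))

theorem algebraMap_top_jF₀ : algebraMap (wTop A M q m) (rTop A L hζ q m)
    (jF₀ (wBase A) (embO A M) q m) = jF₀ (rBase A L) (embR A L hζ) q m :=
  Subtype.ext (fldMap_jF _)

/-! ## Inertia -/

theorem mem_baseK_iff {c : ℂ} (hc : c ∈ baseK (wBase A) (embO A M)) :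
    ∃ y : inertiaFld A, qbarToC (y : Qb) = c := by
  obtain ⟨y, hy, rfl⟩ : c ∈ inertiaC A := by
    refine (Subfield.closure_le (t := inertiaC A)).mpr ?_ hc
    rintro _ ⟨w, rfl⟩
    exact ⟨((w : inertiaFld A) : Qb), (w : inertiaFld A).2, rfl⟩
  exact ⟨⟨y, hy⟩, rfl⟩

variable [Normal ℚ L]

/-- Conjugation by an element of inertia. -/
def tauFld (hζ : zetaQ M ∈ L) (σ : A.inertiaSubgroupIn ℚ) :
    Fld (embR A L hζ) ≃+* Fld (embR A L hζ) :=
  fConj (embR A L hζ) ⟨liftAut (σ : GQ), liftAut_mem_stabK hζ σ⟩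

theorem toLS_tauFld (σ : A.inertiaSubgroupIn ℚ) (x : Fld (embR A L hζ)) :
    toLS _ (tauFld hζ σ x) = lmap (liftAut (σ : GQ)).toRingHom (toLS _ x) :=
  toLS_fConj _ _ _

theorem coeff_mem_rFld (x : Fld (embR A L hζ)) (k : ℤ) :
    ∃ y ∈ rFld A L, qbarToC y = (toLS (embR A L hζ) x).coeff k :=
  (mem_embR_K hζ).mp (mem_kSer.mp (Emb.sFld_le _ (toLS_mem _ x)) k)

theorem tauFld_congr {σ τ : A.inertiaSubgroupIn ℚ} {x : Fld (embR A L hζ)}
    (h : ∀ y ∈ rFld A L, (σ : GQ) y = (τ : GQ) y) : tauFld hζ σ x = tauFld hζ τ x := by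
  refine toLS_injective _ ?_
  rw [toLS_tauFld, toLS_tauFld]
  ext k
  obtain ⟨y, hy, he⟩ := coeff_mem_rFld x k
  simp only [lmap_coeff, RingEquiv.toRingHom_eq_coe, RingEquiv.coe_toRingHom, ← he, liftAut_spec,
    h y hy]

theorem tauFld_fldMap (σ : A.inertiaSubgroupIn ℚ) {x : Fld (embO A M)}
    (hx : toLS _ x ∈ kSer (baseK (wBase A) (embO A M))) :
    tauFld hζ σ (fldMap (embO_K_le hζ) x) = fldMap (embO_K_le hζ) x := by
  refine toLS_injective _ ?_
  rw [toLS_tauFld, toLS_fldMap]
  ext k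
  obtain ⟨y, hy⟩ := mem_baseK_iff (mem_kSer.mp hx k)
  simp only [lmap_coeff, RingEquiv.toRingHom_eq_coe, RingEquiv.coe_toRingHom, ← hy, liftAut_spec,
    (mem_inertiaFld A).mp y.2 _ σ.2]

variable (hMm : M = q * m)

/-- An element of inertia on the descended field. -/
def tauTop (hζ : zetaQ M ∈ L) (hMm : M = q * m) (σ : A.inertiaSubgroupIn ℚ) :
    rTop A L hζ q m →+* rTop A L hζ q m :=
  ((tauFld hζ σ).toRingHom.comp (rTop A L hζ q m).subtype).codRestrict _ fun x =>
    fConj_mem_levelFld (hMm ▸ dvd_mul_right q m) (hMm ▸ dvd_mul_left m q) _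
      (fun c hc => by
        rw [baseK_self] at hc ⊢
        exact ((liftAut_mem_stabK hζ σ) c).mpr hc) x.2

theorem coe_tauTop (σ : A.inertiaSubgroupIn ℚ) (x : rTop A L hζ q m) :
    (tauTop hζ hMm σ x : Fld (embR A L hζ)) = tauFld hζ σ x := rfl

theorem tauTop_base (σ : A.inertiaSubgroupIn ℚ) (x : wTop A M q m) :
    tauTop hζ hMm σ (algebraMap _ (rTop A L hζ q m) x) = algebraMap _ (rTop A L hζ q m) x :=
  Subtype.ext (tauFld_fldMap σ x.2.2)

theorem tauTop_jF₀ (σ : A.inertiaSubgroupIn ℚ) :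
    tauTop hζ hMm σ (jF₀ (rBase A L) (embR A L hζ) q m) = jF₀ (rBase A L) (embR A L hζ) q m :=
  Subtype.ext (fConj_jF _ _)

theorem tauTop_algebraMap (σ : A.inertiaSubgroupIn ℚ) (a : rBase A L) :
    tauTop hζ hMm σ (algebraMap (rBase A L) (rTop A L hζ q m) a) =
      algebraMap (rBase A L) (rTop A L hζ q m) (rAct L σ a) := by
  refine Subtype.ext (toLS_injective _ ?_)
  rw [coe_tauTop, toLS_tauFld]
  show lmap _ (toLS _ (algebraMap (rBase A L) (Fld (embR A L hζ)) a)) =
    toLS _ (algebraMap (rBase A L) (Fld (embR A L hζ)) _)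
  rw [ModField.toLS_algebraMap, ModField.toLS_algebraMap, lmap_C, embR_φ, embR_φ, rVal_rAct]
  exact congrArg _ (liftAut_spec _ _)

theorem tauFld_mul (σ τ : A.inertiaSubgroupIn ℚ) (x : Fld (embR A L hζ)) :
    tauFld hζ (σ * τ) x = tauFld hζ σ (tauFld hζ τ x) := by
  refine toLS_injective _ ?_
  rw [toLS_tauFld, toLS_tauFld, toLS_tauFld]
  ext k
  obtain ⟨y, -, he⟩ := coeff_mem_rFld x k
  simp only [lmap_coeff, RingEquiv.toRingHom_eq_coe, RingEquiv.coe_toRingHom, ← he, liftAut_spec,
    Subgroup.coe_mul, AlgEquiv.mul_apply]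

theorem tauFld_one (x : Fld (embR A L hζ)) : tauFld hζ 1 x = x := by
  refine toLS_injective _ ?_
  rw [toLS_tauFld]
  ext k
  obtain ⟨y, -, he⟩ := coeff_mem_rFld x k
  simp only [lmap_coeff, RingEquiv.toRingHom_eq_coe, RingEquiv.coe_toRingHom, ← he, liftAut_spec,
    OneMemClass.coe_one, AlgEquiv.one_apply]

theorem tauTop_mul (σ τ : A.inertiaSubgroupIn ℚ) (x : rTop A L hζ q m) :
    tauTop hζ hMm (σ * τ) x = tauTop hζ hMm σ (tauTop hζ hMm τ x) :=
  Subtype.ext (tauFld_mul σ τ x.1)

theorem tauTop_one (x : rTop A L hζ q m) : tauTop hζ hMm 1 x = x :=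
  Subtype.ext (tauFld_one x.1)

/-- Inertia as a group of automorphisms of the descended field. -/
def tauHom (hζ : zetaQ M ∈ L) (hMm : M = q * m) :
    A.inertiaSubgroupIn ℚ →* RingAut (rTop A L hζ q m) where
  toFun σ := RingEquiv.ofRingHom (tauTop hζ hMm σ) (tauTop hζ hMm σ⁻¹)
    (RingHom.ext fun x => by
      rw [RingHom.comp_apply, ← tauTop_mul, mul_inv_cancel, tauTop_one]; rfl)
    (RingHom.ext fun x => by
      rw [RingHom.comp_apply, ← tauTop_mul, inv_mul_cancel, tauTop_one]; rfl)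
  map_one' := RingEquiv.ext fun x => tauTop_one hMm x
  map_mul' σ τ := RingEquiv.ext fun x => tauTop_mul hMm σ τ x

theorem card_range_tauHom_le [FiniteDimensional ℚ L] : Finite (tauHom (A := A) hζ hMm).range ∧
    Nat.card (tauHom (A := A) hζ hMm).range ≤ Module.finrank (inertiaFld A) (rFld A L) := by
  have hex : ∀ g : (tauHom (A := A) hζ hMm).range, ∃ σ, tauHom hζ hMm σ = g.1 := fun g => g.2
  choose s hs using hex
  let res : (tauHom (A := A) hζ hMm).range → (rFld A L →ₐ[inertiaFld A] Qb) := fun g =>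
    { ((s g : GQ) : Qb →+* Qb).comp (algebraMap (rFld A L) Qb) with
      commutes' := fun c => (mem_inertiaFld A).mp c.2 _ (s g).2 }
  have hinj : Function.Injective res := fun g g' h => by
    refine Subtype.ext ?_
    rw [← hs g, ← hs g']
    refine RingEquiv.ext fun x => Subtype.ext (tauFld_congr fun y hy => ?_)
    exact DFunLike.congr_fun h ⟨y, hy⟩
  exact ⟨Finite.of_injective res hinj,
    (Nat.card_le_card_of_injective res hinj).trans (card_algHom_le_finrank _ _ _)⟩

/-- Conjugation on bounded functions. -/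
def tauB (hζ : zetaQ M ∈ L) (σ : A.inertiaSubgroupIn ℚ) :
    bddMF (embR A L hζ) ≃+* bddMF (embR A L hζ) :=
  conjB (embR A L hζ) ⟨liftAut (σ : GQ), liftAut_mem_stabK hζ σ⟩

theorem tauFld_toFld (σ : A.inertiaSubgroupIn ℚ) (b : bddMF (embR A L hζ)) :
    tauFld hζ σ (toFld _ b) = toFld _ (tauB hζ σ b) :=
  fConj_toFld _ _ b

theorem tauB_mul (σ τ : A.inertiaSubgroupIn ℚ) (b : bddMF (embR A L hζ)) :
    tauB hζ (σ * τ) b = tauB hζ σ (tauB hζ τ b) := by
  refine toFld_injective (embR A L hζ) ?_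
  rw [← tauFld_toFld, ← tauFld_toFld, ← tauFld_toFld, tauFld_mul]

theorem tauB_one (b : bddMF (embR A L hζ)) : tauB hζ 1 b = b := by
  refine toFld_injective (embR A L hζ) ?_
  rw [← tauFld_toFld, tauFld_one]

theorem finite_tauB_orbit [FiniteDimensional ℚ L] (b : bddMF (embR A L hζ)) :
    (Set.range fun σ : A.inertiaSubgroupIn ℚ => tauB hζ σ b).Finite := by
  let r : A.inertiaSubgroupIn ℚ → (rFld A L →ₐ[inertiaFld A] Qb) := fun σ =>
    { ((σ : GQ) : Qb →+* Qb).comp (algebraMap (rFld A L) Qb) with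
      commutes' := fun c => (mem_inertiaFld A).mp c.2 _ σ.2 }
  choose u hu using fun f : Set.range r => f.2
  refine (Set.finite_range fun f : Set.range r => tauB hζ (u f) b).subset ?_
  rintro _ ⟨σ, rfl⟩
  refine ⟨⟨r σ, σ, rfl⟩, toFld_injective (embR A L hζ) ?_⟩
  rw [← tauFld_toFld, ← tauFld_toFld]
  exact tauFld_congr fun y hy => DFunLike.congr_fun (hu ⟨r σ, σ, rfl⟩) ⟨y, hy⟩

/-- A nonzero invariant multiple. -/
theorem exists_invariant_mul [FiniteDimensional ℚ L] (b : bddMF (embR A L hζ)) (hb : b ≠ 0) :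
    ∃ c : bddMF (embR A L hζ), b * c ≠ 0 ∧ ∀ σ : A.inertiaSubgroupIn ℚ,
      tauB hζ σ (b * c) = b * c := by
  classical
  set S := (finite_tauB_orbit b).toFinset with hS
  have hmem : ∀ σ : A.inertiaSubgroupIn ℚ, ∀ z ∈ S, tauB hζ σ z ∈ S := by
    intro σ z hz
    obtain ⟨τ, rfl⟩ := (finite_tauB_orbit b).mem_toFinset.mp hz
    exact (finite_tauB_orbit b).mem_toFinset.mpr ⟨σ * τ, tauB_mul σ τ b⟩
  have hbS : b ∈ S := (finite_tauB_orbit b).mem_toFinset.mpr ⟨1, tauB_one b⟩
  have e : b * ∏ z ∈ S.erase b, z = ∏ z ∈ S, z := Finset.mul_prod_erase S (fun z => z) hbS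
  refine ⟨∏ z ∈ S.erase b, z, ?_, fun σ => ?_⟩ <;> rw [e]
  · refine Finset.prod_ne_zero_iff.mpr fun z hz h0 => ?_
    obtain ⟨σ, rfl⟩ := (finite_tauB_orbit b).mem_toFinset.mp hz
    exact hb ((tauB hζ σ).injective (h0.trans (map_zero _).symm))
  · rw [map_prod]
    have hi : Finset.image (tauB hζ σ) S = S :=
      Finset.eq_of_subset_of_card_le (Finset.image_subset_iff.mpr (hmem σ))
        (Finset.card_image_of_injective S (tauB hζ σ).injective).ge
    conv_rhs => rw [← hi]
    exact (Finset.prod_image (f := fun z => z) fun z _ z' _ e => (tauB hζ σ).injective e).symm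

/-- Descent of an invariant function. -/
theorem exists_descend (c : bddMF (embR A L hζ))
    (hc : ∀ σ : A.inertiaSubgroupIn ℚ, tauB hζ σ c = c) :
    ∃ c₀ : bddMF (embO A M), serAlg M (c₀ : MF M) ∈ kSer (baseK (wBase A) (embO A M)) ∧
      bddIncl (embO_K_le hζ) c₀ = c := by
  have hs : serAlg M (c : MF M) ∈ kSer (baseK (wBase A) (embO A M)) := by
    refine mem_kSer.mpr fun k => ?_
    obtain ⟨y, -, he⟩ := coeff_mem_rFld (toFld (embR A L hζ) c) k
    rw [toLS_toFld] at he
    rw [← he]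
    refine hasFixedConsts_oBase y fun t ht => qbarToC.injective ?_
    have h1 : lmap (liftAut t).toRingHom (serAlg M (c : MF M)) = serAlg M (c : MF M) := by
      have h2 := toLS_tauFld (hζ := hζ) ⟨t, ht⟩ (toFld _ c)
      rw [tauFld_toFld, hc, toLS_toFld] at h2
      exact h2.symm
    have h3 := congrArg (fun f => HahnSeries.coeff f k) h1
    simp only [lmap_coeff, RingEquiv.toRingHom_eq_coe, RingEquiv.coe_toRingHom, ← he,
      liftAut_spec] at h3
    exact h3
  exact ⟨⟨c, bdd_of_kSer _ (kSer_mono (baseK_le _ _) hs)⟩, hs, Subtype.ext (coe_bddIncl _ _)⟩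

/-- An element fixed by inertia comes from the field over the inertia field. -/
theorem exists_of_fixed [FiniteDimensional ℚ L] {x : rTop A L hζ q m}
    (h : ∀ σ : A.inertiaSubgroupIn ℚ, tauTop hζ hMm σ x = x) :
    ∃ z : wTop A M q m, algebraMap _ (rTop A L hζ q m) z = x := by
  obtain ⟨a, b, hb, hx⟩ := exists_eq_div (embR A L hζ) (x : Fld (embR A L hζ))
  obtain ⟨c, hbc, hfix⟩ := exists_invariant_mul b hb
  have hb0 : toFld (embR A L hζ) (b * c) ≠ 0 := (map_ne_zero_iff _ (toFld_injective (embR A L hζ))).mpr hbc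
  have hab : toFld (embR A L hζ) (a * c) = (x : Fld (embR A L hζ)) * toFld _ (b * c) := by
    rw [map_mul, map_mul, hx, ← mul_assoc, div_mul_cancel₀]
    exact (map_ne_zero_iff _ (toFld_injective (embR A L hζ))).mpr hb
  have hfixa : ∀ σ : A.inertiaSubgroupIn ℚ, tauB hζ σ (a * c) = a * c := fun σ => by
    refine toFld_injective (embR A L hζ) ?_
    rw [← tauFld_toFld, hab, map_mul, tauFld_toFld, hfix σ,
      ← coe_tauTop (hζ := hζ) (hMm := hMm) σ x, h σ]
  obtain ⟨a₀, ha₀, ha'⟩ := exists_descend _ hfixa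
  obtain ⟨b₀, hb₀, hb₀'⟩ := exists_descend _ hfix
  have he : fldMap (embO_K_le hζ) (toFld _ a₀ / toFld _ b₀) = (x : Fld (embR A L hζ)) := by
    rw [map_div₀, fldMap_toFld, fldMap_toFld, ha', hb₀', hab, mul_div_cancel_right₀ _ hb0]
  refine ⟨⟨toFld _ a₀ / toFld _ b₀, fun g hg => (fldMap (embO_K_le hζ)).injective ?_, ?_⟩,
    Subtype.ext he⟩
  · rw [fldMap_fShift, he]
    exact x.2.1 g hg
  · rw [map_div₀, toLS_toFld, toLS_toFld]
    exact div_mem ha₀ hb₀

theorem finrank_le_of_fixed {F K : Type} [Field F] [Field K] [Algebra F K]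
    (G : Subgroup (RingAut K)) [Finite G]
    (h₁ : ∀ g ∈ G, ∀ x : F, g (algebraMap F K x) = algebraMap F K x)
    (h₂ : ∀ y : K, (∀ g ∈ G, g y = y) → ∃ x : F, algebraMap F K x = y) :
    FiniteDimensional F K ∧ Module.finrank F K ≤ Nat.card G := by
  classical
  haveI : Fintype G := Fintype.ofFinite G
  let i : F ≃+* FixedPoints.subfield G K := RingEquiv.ofBijective
    ((algebraMap F K).codRestrict (FixedPoints.subfield G K) fun x g => h₁ g.1 g.2 x)
    ⟨fun a b e => (algebraMap F K).injective (congrArg Subtype.val e),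
      fun y => by
        obtain ⟨z, hz⟩ := h₂ y fun g hg => y.2 ⟨g, hg⟩
        exact ⟨z, Subtype.ext hz⟩⟩
  have he := Algebra.finrank_eq_of_equiv_equiv i (RingEquiv.refl K) (RingHom.ext fun _ => rfl)
  have hpos : 0 < Module.finrank F K := by rw [he]; exact Module.finrank_pos
  refine ⟨FiniteDimensional.of_finrank_pos hpos, ?_⟩
  rw [he, FixedPoints.finrank_eq_card G K, Nat.card_eq_fintype_card]

theorem tauHom_apply (σ : A.inertiaSubgroupIn ℚ) (x : rTop A L hζ q m) :
    tauHom hζ hMm σ x = tauTop hζ hMm σ x := rfl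

/-- A coefficient, as an additive map. -/
def topCoeff (hζ : zetaQ M ∈ L) (q m : ℕ) (k : ℤ) : rTop A L hζ q m →+ ℂ :=
  (HahnSeries.coeff.addMonoidHom k).comp
    ((toLS (embR A L hζ)).toAddMonoidHom.comp (rTop A L hζ q m).subtype.toAddMonoidHom)

theorem topCoeff_smul (k : ℤ) (z : wTop A M q m) (a : rBase A L) :
    topCoeff hζ q m k (z • algebraMap (rBase A L) (rTop A L hζ q m) a) =
      (toLS (embO A M) (z : Fld (embO A M))).coeff k * qbarToC (rVal A L a) := by
  have h : toLS (embR A L hζ) ((z • algebraMap (rBase A L) (rTop A L hζ q m) a :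
      rTop A L hζ q m) : Fld (embR A L hζ)) =
      toLS (embO A M) (z : Fld (embO A M)) * HahnSeries.C (qbarToC (rVal A L a)) := by
    rw [Algebra.smul_def, Subfield.coe_mul, map_mul, toLS_algebraMap_top, coe_algebraMap_fld₀,
      ModField.toLS_algebraMap, embR_φ]
  rw [mul_comm, ← HahnSeries.coeff_single_zero_mul, ← HahnSeries.C_apply, mul_comm, ← h]
  rfl

variable [FiniteDimensional ℚ L] (hq : q.Prime) (hA : A.LiesOverPrime q)
include hMm hq hA

theorem finrank_top_le : FiniteDimensional (wTop A M q m) (rTop A L hζ q m) ∧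
    Module.finrank (wTop A M q m) (rTop A L hζ q m) ≤ rIdx (L := L) hq hA := by
  obtain ⟨hfin, hcard⟩ := card_range_tauHom_le (A := A) (hζ := hζ) hMm
  haveI := hfin
  obtain ⟨h1, h2⟩ := finrank_le_of_fixed (F := wTop A M q m) (K := rTop A L hζ q m)
    (tauHom (A := A) hζ hMm).range
    (fun g hg x => by
      obtain ⟨σ, rfl⟩ := hg
      rw [tauHom_apply, tauTop_base])
    (fun y hy => exists_of_fixed hMm fun σ => by
      rw [← tauHom_apply]
      exact hy _ ⟨σ, rfl⟩)
  exact ⟨h1, h2.trans (hcard.trans (finrank_rFld_le hq hA))⟩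

theorem linearIndependent_top : LinearIndependent (wTop A M q m)
    fun i : Fin (rIdx (L := L) hq hA) =>
      algebraMap (rBase A L) (rTop A L hζ q m) (rUnif hq hA) ^ (i : ℕ) := by
  refine Fintype.linearIndependent_iff.mpr fun x hx i => Subtype.ext (toLS_injective (embO A M) ?_)
  rw [ZeroMemClass.coe_zero, map_zero]
  ext k
  choose c hc using fun i => mem_baseK_iff (mem_kSer.mp ((x i).2.2) k)
  have h := congrArg (topCoeff hζ q m k) hx
  rw [map_sum, map_zero] at h
  have key : ∑ i, (c i : Qb) * rVal A L (rUnif hq hA) ^ (i : ℕ) = 0 := by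
    refine qbarToC.injective ?_
    rw [map_zero, map_sum, ← h]
    refine Finset.sum_congr rfl fun i _ => ?_
    rw [← map_pow (algebraMap (rBase A L) (rTop A L hζ q m)), topCoeff_smul, map_mul, hc, map_pow (rVal A L)]
  rw [← hc i, congrFun (indep_rUnif hq hA c key) i]
  simp

/-- The descended fields form a totally ramified extension. -/
def totRam : TotRam (wBase A) (rBase A L) (wTop A M q m) (rTop A L hζ q m) where
  π := (q : wBase A)
  ϖ := rUnif hq hA
  e := rIdx (L := L) hq hA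
  e_pos := rIdx_pos hq hA
  unit := (exists_unit hq hA).choose
  pow_eq := (exists_unit hq hA).choose_spec
  π_ne := by
    rw [map_natCast]
    exact Nat.cast_ne_zero.mpr hq.ne_zero
  valuation a ha := exists_valuation_wBase hq hA a fun h => ha (by rw [h, map_zero])
  rep := exists_rep hq hA
  integral := isIntegral_rBase hq hA _
  adjoin_eq := by
    obtain ⟨hfd, hle⟩ := finrank_top_le (hζ := hζ) hMm hq hA
    have hli := linearIndependent_top (hζ := hζ) hMm hq hA
    have hspan := hli.span_eq_top_of_card_eq_finrank' (le_antisymm hli.fintype_card_le_finrank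
      (by rwa [Fintype.card_fin]))
    refine eq_top_iff.mpr fun y _ => ?_
    have hy : y ∈ Submodule.span (wTop A M q m) _ := hspan ▸ Submodule.mem_top (x := y)
    refine (Submodule.span_le (p := (Algebra.adjoin (wTop A M q m)
      {algebraMap (rBase A L) (rTop A L hζ q m) (rUnif hq hA)}).toSubmodule)).mpr ?_ hy
    rintro _ ⟨i, rfl⟩
    exact pow_mem (Algebra.self_mem_adjoin_singleton _ _) _
  finrank_eq := by
    obtain ⟨hfd, hle⟩ := finrank_top_le (hζ := hζ) hMm hq hA
    refine le_antisymm hle ?_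
    simpa using (linearIndependent_top (hζ := hζ) hMm hq hA).fintype_card_le_finrank

/-- The residual condition of `TotRam.trivialMod_extend`. -/
theorem tauTop_residual (σ : A.inertiaSubgroupIn ℚ) (a : rBase A L) :
    ∃ a' : rBase A L, tauTop hζ hMm σ (algebraMap _ (rTop A L hζ q m) a) -
      algebraMap _ (rTop A L hζ q m) a =
        algebraMap _ (rTop A L hζ q m) ((totRam (hζ := hζ) hMm hq hA).ϖ * a') := by
  obtain ⟨a', ha⟩ := exists_rAct_sub hq hA σ a
  refine ⟨a', ?_⟩
  rw [tauTop_algebraMap, ← map_sub, ha]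
  rfl

/-- The uniformiser goes to a unit multiple of itself. -/
theorem tauTop_unif (σ : A.inertiaSubgroupIn ℚ) :
    ∃ v : (rBase A L)ˣ, tauTop hζ hMm σ (algebraMap _ (rTop A L hζ q m) (totRam (hζ := hζ) hMm hq hA).ϖ) =
      algebraMap _ (rTop A L hζ q m) (totRam (hζ := hζ) hMm hq hA).ϖ *
        algebraMap _ (rTop A L hζ q m) (v : rBase A L) := by
  obtain ⟨v, hv⟩ := exists_rAct_rUnif (L := L) hq hA σ
  refine ⟨v, ?_⟩
  rw [tauTop_algebraMap, ← map_mul]
  exact congrArg _ hv

end Fermat.Agent.GalRep.InertiaBase
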