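/-
Totally ramified bases with an action of inertia exist.
-/
import Fermat.Agent.GalRep.InertiaBase.Field
import Fermat.Agent.GalRep.InertiaBase.Exports
import Fermat.Agent.GalRep.Semistable.InertiaBound

set_option autoImplicit false
set_option linter.style.haveILetI false
set_option linter.unusedSectionVars false

noncomputable section

namespace Fermat.Agent.GalRep.InertiaBase

open IsLocalRing
open Fermat.Agent.Galois (GQ)
open Fermat.Agent.GalRep.Level
open Fermat.Agent.ModField
open Fermat.Agent.NewVec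
open Fermat.Agent.GalRep.Semistable (HasRamBase)

local notation "Qb" => AlgebraicClosure ℚ

variable {A : ValuationSubring (AlgebraicClosure ℚ)} {L : IntermediateField ℚ (AlgebraicClosure ℚ)}
  [FiniteDimensional ℚ L] [Normal ℚ L] {M : ℕ} [NeZero M] {q : ℕ}

theorem inertAct_embR (hq : q.Prime) (hA : A.LiesOverPrime q) (hζ : zetaQ M ∈ L) {σ : GQ}
    (hσ : σ ∈ A.inertiaSubgroupIn ℚ) :
    InertAct (wBase A) (embO A M) (embR A L hζ) (rUnif hq hA) (liftAut σ) where
  stab := liftAut_mem_stabK hζ ⟨σ, hσ⟩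
  fix c hc := by
    obtain ⟨y, rfl⟩ := mem_baseK_iff hc
    rw [liftAut_spec]
    exact congrArg qbarToC ((mem_inertiaFld A).mp y.2 σ hσ)
  res a := by
    obtain ⟨a', ha⟩ := exists_rAct_sub hq hA ⟨σ, hσ⟩ a
    refine ⟨a', ?_⟩
    rw [← ha, add_sub_cancel, embR_φ, embR_φ, rVal_rAct, liftAut_spec]
  unif := by
    obtain ⟨v, hv⟩ := exists_rAct_rUnif (L := L) hq hA ⟨σ, hσ⟩
    refine ⟨v, ?_⟩
    rw [← hv, embR_φ, embR_φ, rVal_rAct, liftAut_spec]

theorem qbarToC_mem_baseK (hζ : zetaQ M ∈ L) {x : Qb} (hx : x ∈ L) :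
    qbarToC x ∈ baseK (rBase A L) (embR A L hζ) := by
  rw [baseK_self]
  exact (mem_embR_K hζ).mpr ⟨x, mem_rFld_of_mem A L hx, rfl⟩

/-- Totally ramified bases exist. -/
theorem hasRamBase {q : ℕ} {A : ValuationSubring (AlgebraicClosure ℚ)} {m : ℕ} [NeZero (q * m)]
    (hq : q.Prime) (hA : A.LiesOverPrime q) (hqm : ¬ q ∣ m) : HasRamBase A q m := by
  intro L₀ hL₀
  haveI : FiniteDimensional ℚ L₀ := hL₀
  haveI : Normal ℚ Qb := IsGalois.to_normal
  haveI : FiniteDimensional ℚ (IntermediateField.adjoin ℚ ({zetaQ (q * m)} : Set Qb)) :=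
    IntermediateField.adjoin.finiteDimensional
      (Algebra.IsIntegral.isIntegral (R := ℚ) (zetaQ (q * m)))
  let L : IntermediateField ℚ Qb := IntermediateField.normalClosure ℚ
    ↥(L₀ ⊔ IntermediateField.adjoin ℚ ({zetaQ (q * m)} : Set Qb)) Qb
  haveI : FiniteDimensional ℚ L := normalClosure.is_finiteDimensional ℚ _ Qb
  haveI : Normal ℚ L := normalClosure.normal ℚ _ Qb
  have hle : L₀ ⊔ IntermediateField.adjoin ℚ ({zetaQ (q * m)} : Set Qb) ≤ L :=
    IntermediateField.le_normalClosure _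
  have hζ : zetaQ (q * m) ∈ L := hle (le_sup_right
    (a := L₀) (IntermediateField.mem_adjoin_simple_self ℚ _))
  haveI := (rBase_dvr (L := L) hq hA).1
  obtain ⟨e', k, he, -, hu, ζ, hz⟩ := exists_tame_split (L := L) hq hA
  refine ⟨rBase A L, inferInstance, inferInstance, inferInstance, embR A L hζ, inferInstance,
    instAlgebraTop, instAlgebraWTop, instTowerWTop, instTowerWRTop,
    totRam (hζ := hζ) rfl hq hA, e', k, algebraMap (wBase A) (rBase A L) ζ,
    fun x => toLS_algebraMap_top x, rfl, he,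
    hz.map_of_injective (FaithfulSMul.algebraMap_injective _ _), hu, ?_,
    fun x hx => qbarToC_mem_baseK hζ (hle (le_sup_left (b :=
      IntermediateField.adjoin ℚ ({zetaQ (q * m)} : Set Qb)) hx)),
    fun σ hσ => inertAct_embR hq hA hζ hσ⟩
  rw [mem_maximalIdeal_rBase, map_natCast]
  exact val_q_lt hq hA

end Fermat.Agent.GalRep.InertiaBase
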