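/-
An element of inertia whose `q`-th power fixes the compositum: its break.
-/
import Fermat.Agent.GalRep.InertiaBase.Ring
import Mathlib.Algebra.CharP.Lemmas
import Mathlib.RingTheory.IntegralDomain

set_option autoImplicit false
set_option linter.style.haveILetI false
set_option linter.unusedSectionVars false

noncomputable section

namespace Fermat.Agent.GalRep.InertiaBase

open IsLocalRing
open Fermat.Agent.Galois
open Fermat.Agent.NewVec

local notation "Qb" => AlgebraicClosure ℚ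

variable {A : ValuationSubring (AlgebraicClosure ℚ)} {L : IntermediateField ℚ (AlgebraicClosure ℚ)}
  [FiniteDimensional ℚ L] [Normal ℚ L] {q : ℕ} (hq : q.Prime) (hA : A.LiesOverPrime q)

theorem rAct_algebraMap (σ : A.inertiaSubgroupIn ℚ) (w : wBase A) :
    rAct L σ (algebraMap (wBase A) (rBase A L) w) = algebraMap (wBase A) (rBase A L) w :=
  rVal_injective A L (by
    rw [rVal_rAct, rVal_algebraMap]
    exact (mem_inertiaFld A).mp (w : inertiaFld A).2 _ σ.2)

theorem rAct_mul (σ τ : A.inertiaSubgroupIn ℚ) (x : rBase A L) :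
    rAct L (σ * τ) x = rAct L σ (rAct L τ x) :=
  rVal_injective A L (by rw [rVal_rAct, rVal_rAct, rVal_rAct]; rfl)

theorem residue_rAct (σ : A.inertiaSubgroupIn ℚ) (x : rBase A L) :
    residue (rBase A L) (rAct L σ x) = residue (rBase A L) x := by
  rw [← sub_eq_zero, ← map_sub, residue_eq_zero_iff]
  exact rAct_sub_mem σ x

include hq hA

local notation "ϖ" => rUnif (L := L) hq hA
local notation "eR" => rIdx (L := L) hq hA

theorem residue_natCast_self : (q : ResidueField (rBase A L)) = 0 := by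
  rw [← map_natCast (residue (rBase A L)) q, residue_eq_zero_iff, mem_maximalIdeal_rBase,
    map_natCast]
  exact val_q_lt hq hA

/-- Everything is moved by a multiple of `ϖ (σ ϖ / ϖ - 1)`. -/
theorem dvd_rAct_sub {σ : A.inertiaSubgroupIn ℚ} {u : (rBase A L)ˣ}
    (hu : rAct L σ ϖ = ϖ * u) (a : rBase A L) : ϖ * ((u : rBase A L) - 1) ∣ rAct L σ a - a := by
  obtain ⟨c, rfl⟩ := exists_rep hq hA a
  rw [map_sum, ← Finset.sum_sub_distrib]
  refine Finset.dvd_sum fun i _ => ?_
  rw [map_mul, map_pow, rAct_algebraMap, hu, mul_pow]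
  rcases Nat.eq_zero_or_pos (i : ℕ) with h | h
  · simp [h]
  · obtain ⟨j, hj⟩ := Nat.exists_eq_succ_of_ne_zero h.ne'
    obtain ⟨d, hd⟩ := sub_one_dvd_pow_sub_one (u : rBase A L) (i : ℕ)
    refine ⟨algebraMap (wBase A) (rBase A L) (c i) * ϖ ^ j * d, ?_⟩
    rw [show algebraMap (wBase A) (rBase A L) (c i) * (ϖ ^ (i : ℕ) * (u : rBase A L) ^ (i : ℕ)) -
      algebraMap (wBase A) (rBase A L) (c i) * ϖ ^ (i : ℕ) =
      algebraMap (wBase A) (rBase A L) (c i) * ϖ ^ (i : ℕ) * ((u : rBase A L) ^ (i : ℕ) - 1) by ring,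
      hd, hj, pow_succ]
    ring

/-- An element moving nothing on the ring moves nothing on the field. -/
theorem apply_eq_of_rAct {σ : A.inertiaSubgroupIn ℚ} (h : ∀ a : rBase A L, rAct L σ a = a) {x : Qb}
    (hx : x ∈ rFld A L) : (σ : GQ) x = x := by
  rcases (rBase A L).mem_or_inv_mem ⟨x, hx⟩ with h' | h'
  · have := congrArg (rVal A L) (h ⟨_, h'⟩)
    rw [rVal_rAct] at this
    exact this
  · have := congrArg (rVal A L) (h ⟨_, h'⟩)
    rw [rVal_rAct] at this
    change (σ : GQ) x⁻¹ = x⁻¹ at this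
    rwa [map_inv₀, inv_inj] at this

/-- The index is divisible by `q`. -/
theorem dvd_rIdx {σ : A.inertiaSubgroupIn ℚ} {u : (rBase A L)ˣ} (hu : rAct L σ ϖ = ϖ * u)
    (hres : residue (rBase A L) ((u : rBase A L) - 1) = 0) (hne : (u : rBase A L) - 1 ≠ 0) :
    q ∣ eR := by
  haveI : CharP (ResidueField (rBase A L)) q :=
    (CharP.charP_iff_prime_eq_zero hq).mpr (residue_natCast_self hq hA)
  obtain ⟨U, hU⟩ := exists_unit (L := L) hq hA
  rw [map_natCast] at hU
  have h1 := congrArg (rAct L σ) hU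
  rw [map_pow, hu, mul_pow, hU, map_mul, map_natCast, mul_assoc] at h1
  have hq0 : (q : rBase A L) ≠ 0 := fun h => by
    have h' := congrArg (rVal A L) h
    rw [map_natCast, map_zero] at h'
    exact hq.ne_zero (by exact_mod_cast h')
  have h4 : (U : rBase A L) * (u : rBase A L) ^ eR = rAct L σ U := mul_left_cancel₀ hq0 h1
  have h2 : ϖ * ((u : rBase A L) - 1) ∣ (U : rBase A L) * ((u : rBase A L) ^ eR - 1) := by
    rw [mul_sub (U : rBase A L), mul_one (U : rBase A L), h4]
    exact dvd_rAct_sub hq hA hu _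
  rw [IsUnit.dvd_mul_left U.isUnit, ← geom_sum_mul] at h2
  have h2' : ϖ ∣ ∑ i ∈ Finset.range eR, (u : rBase A L) ^ i := (mul_dvd_mul_iff_right hne).mp h2
  have hur : residue (rBase A L) (u : rBase A L) = 1 := by
    rw [map_sub, map_one] at hres
    exact sub_eq_zero.mp hres
  have h3 : residue (rBase A L) (∑ i ∈ Finset.range eR, (u : rBase A L) ^ i) = 0 := by
    rw [residue_eq_zero_iff, (rBase_dvr (L := L) hq hA).2.1, Ideal.mem_span_singleton]
    exact h2'
  simp only [map_sum, map_pow, hur, one_pow, Finset.sum_const, Finset.card_range,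
    nsmul_eq_mul, mul_one] at h3
  exact (CharP.cast_eq_zero_iff _ q _).mp h3

/-- The break of an element of inertia of order `q` on the compositum. -/
theorem exists_break {σ : A.inertiaSubgroupIn ℚ}
    (hper : ∀ x ∈ rFld A L, ((σ ^ q : A.inertiaSubgroupIn ℚ) : GQ) x = x)
    (hmov : ∃ x ∈ rFld A L, (σ : GQ) x ≠ x) :
    q ∣ eR ∧ ∃ b : ℕ, 1 ≤ b ∧
      A.valuation ((σ : GQ) (rVal A L ϖ) / rVal A L ϖ - 1) = A.valuation (rVal A L ϖ) ^ b ∧
      ∀ φ ∈ rFld A L, A.valuation φ ≤ 1 →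
        A.valuation ((σ : GQ) φ - φ) ≤ A.valuation (rVal A L ϖ) ^ (b + 1) := by
  haveI : Fact q.Prime := ⟨hq⟩
  haveI := (rBase_dvr (L := L) hq hA).1
  haveI : CharP (ResidueField (rBase A L)) q :=
    (CharP.charP_iff_prime_eq_zero hq).mpr (residue_natCast_self hq hA)
  obtain ⟨u, hu⟩ := exists_rAct_rUnif (L := L) hq hA σ
  obtain ⟨δ, hδdef⟩ : ∃ δ : rBase A L, δ = (u : rBase A L) - 1 := ⟨_, rfl⟩
  have hϖ0 : ϖ ≠ 0 := fun h => rUnif_ne (L := L) hq hA (by rw [h, map_zero])
  -- iterates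
  have hiter : ∀ n : ℕ, ∃ w : rBase A L, rAct L (σ ^ n) ϖ = ϖ * w ∧
      residue (rBase A L) w = residue (rBase A L) u ^ n := by
    intro n
    induction n with
    | zero =>
      refine ⟨1, ?_, by rw [map_one, pow_zero]⟩
      rw [mul_one, pow_zero]
      exact rVal_injective A L (by rw [rVal_rAct]; rfl)
    | succ n ih =>
      obtain ⟨w, hw, hwr⟩ := ih
      refine ⟨(u : rBase A L) * rAct L σ w, ?_, by rw [map_mul, residue_rAct, hwr, pow_succ']⟩
      rw [pow_succ', rAct_mul, hw, map_mul, hu, mul_assoc]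
  have hres : residue (rBase A L) δ = 0 := by
    obtain ⟨w, hw, hwr⟩ := hiter q
    have hid : rAct L (σ ^ q) ϖ = ϖ * 1 := by
      rw [mul_one]
      exact rVal_injective A L (by rw [rVal_rAct]; exact hper _ (rVal_mem_rFld A L ϖ))
    rw [hid] at hw
    rw [← mul_left_cancel₀ hϖ0 hw, map_one] at hwr
    refine pow_eq_zero_iff hq.ne_zero |>.mp ?_
    rw [hδdef, map_sub, map_one, sub_pow_char, one_pow, ← hwr, sub_self]
  have hδ0 : δ ≠ 0 := fun h => by
    obtain ⟨x, hx, hne⟩ := hmov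
    refine hne (apply_eq_of_rAct hq hA (fun a => ?_) hx)
    have := dvd_rAct_sub hq hA hu a
    rw [← hδdef, h, mul_zero, zero_dvd_iff, sub_eq_zero] at this
    exact this
  have hvδ0 : rVal A L δ ≠ 0 := fun h => hδ0 (rVal_injective A L (by rw [h, map_zero]))
  obtain ⟨k, hk⟩ := exists_val_rFld hq hA (rVal_mem_rFld A L δ) hvδ0
  have hv0 : (0 : A.ValueGroup) < A.valuation (rVal A L ϖ) :=
    zero_lt_iff.mpr (by simpa using rUnif_ne (L := L) hq hA)
  have hk1 : 1 ≤ k := by
    by_contra h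
    push Not at h
    have h1 : A.valuation (rVal A L δ) < 1 := (mem_maximalIdeal_rBase A L δ).mp
      ((residue_eq_zero_iff _).mp hres)
    rw [hk] at h1
    exact absurd h1 (not_lt.mpr ((zpow_zero _).symm.le.trans
      (zpow_le_zpow_right_of_le_one₀ hv0 (val_rUnif_lt hq hA).le (by omega))))
  obtain ⟨b, rfl⟩ := Int.eq_ofNat_of_zero_le (by omega : 0 ≤ k)
  rw [zpow_natCast] at hk
  refine ⟨?_, b, by omega, ?_, fun φ hφ hφ1 => ?_⟩
  · exact dvd_rIdx hq hA hu (hδdef ▸ hres) (hδdef ▸ hδ0)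
  · rw [← rVal_rAct, hu, map_mul, mul_div_cancel_left₀ _ (rUnif_ne hq hA),
      ← map_one (rVal A L), ← map_sub, ← hδdef]
    exact hk
  · obtain ⟨d, hd⟩ := dvd_rAct_sub hq hA hu (⟨⟨φ, hφ⟩, (A.valuation_le_one_iff _).mp hφ1⟩ : rBase A L)
    have h1 := congrArg (rVal A L) hd
    rw [map_sub, rVal_rAct, map_mul, map_mul] at h1
    change (σ : GQ) φ - φ = _ at h1
    rw [h1, map_mul, map_mul, ← hδdef, hk, ← pow_succ']
    exact mul_le_of_le_one_right' ((A.valuation_le_one_iff _).mpr (rVal_mem A L d))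

end Fermat.Agent.GalRep.InertiaBase
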